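/-
DS/G (generic twins), chapter RED/BASE, helper77.  Twin of `RED/BASE/Interface12`: the INTERFACE of
chapter BASE at an abstract level `L : LevelData` (`DS/G/Level.lean`) with realisation data
`D : RealizeDataK L` and cusp data `C : CuspDataK L D`, in place of `Γ₀(M)`.

The Hauptmodul stays the one of `X₀(n)`, `(n, e) = (4, 8)` or `(9, 3)`:
`tK n e = q⁻¹ (η(q)/η(q^n))^e ∈ ℚbar((q))`; it lies in `ℚbar·L.F₀` as soon as
`modularFunctionFieldFull M ≤ L.F₀` for some multiple `M` of `n` (`TMem.of_le`).
The level-free notions of the original file (`IsIntAway`, `IsUnitAway`, `tK`, `CuspShape`,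
`CuspSeparated`, `TGenBase`) are used as they are.

Exports (Prop-defs, same names as the originals, the level `M` replaced by `L` (and `D`, `C`)):
`TMem`, `tF`, `TRealize`, `TIsGen`, `Unbranched`, `CuspExp`; the old ones are the instance
`L = L0 M`, `D = realizeData M`, `C = cuspData M` up to the bundling of `X0.RealizeData` (sanity
lemmas `tMem_L0_iff`, `tIsGen_L0_iff`).
-/
import Mathlib
import Fermat.Agent.DS.G.Level
import Fermat.Agent.RED.BASE.Interface12

set_option autoImplicit false

open UpperHalfPlane ModularCurve HahnSeries AlgebraicCurve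
open scoped MatrixGroups IntermediateField

noncomputable section

namespace Fermat.Agent.DS.G.RED.BASE.Interface12

open Fermat.Agent.X0 Fermat.Agent.X0.Analytic Fermat.Agent.RED.BASE.EtaQuot12
open Fermat.Agent.DS.G.Level
open Fermat.Agent.RED.BASE.Interface12 (tK CuspShape CuspSeparated IsIntAway IsUnitAway)

section Exports

variable (n e : ℕ) [NeZero n] (L : LevelData)

/-- (B2) `t ∈ ℚbar·L.F₀`. -/
def TMem : Prop := tK n e ∈ ModularCurve.laurentBaseChange Kbar L.F₀

variable {n e}

/-- `t` as an element of `FFL L`. -/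
def tF (h : TMem n e L) : FFL L := ⟨tK n e, h⟩

@[simp] theorem coe_tF (h : TMem n e L) : ((tF L h : FFL L) : LaurentSeries Kbar) = tK n e := rfl

variable (n e)

/-- (B2') analytic dictionary: `t = a/b` with `Θ a = Θ b · tauFun`. -/
def TRealize (D : RealizeDataK L) : Prop :=
  ∃ h : TMem n e L, ∃ a b : RsubL L, b ≠ 0 ∧ tF L h * (b : FFL L) = (a : FFL L) ∧
    ∀ z : ℍ, D.Θ a z = D.Θ b z * tauFun n e z

/-- (B3') `t` is a transcendental generator of `FFL L`. -/
def TIsGen : Prop := ∃ h : TMem n e L, FF.IsGen Kbar (tF L h)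

/-- (B6) branched only over the cusp values: at every place of `FFL L` which is not over
`j = ∞`, `t` is regular and `t - t(v)` is a uniformiser. -/
def Unbranched : Prop :=
  ∃ h : TMem n e L, ∀ v : Place Kbar (FFL L), 0 ≤ v.ord (jFL L) →
    ∃ c : Kbar, v.ord (tF L h - algebraMap Kbar (FFL L) c) = 1

/-- (B5) every cusp expansion of `t` at the level `L` has the cusp shape, with a value function
`cv : SL₂(ℤ) → Option ℚbar` (`none` = pole). -/
def CuspExp {D : RealizeDataK L} (C : CuspDataK L D) (cv : SL(2, ℤ) → Option Kbar) : Prop :=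
  ∃ h : TMem n e L, ∀ γ : SL(2, ℤ), CuspShape n (C.T γ (tF L h)) (cv γ)

variable {n e L}

/-- membership passes to every level whose rational field contains `F_M`, `n ∣ M`. -/
theorem TMem.of_le {M : ℕ} [NeZero M] (hle : ModularCurve.modularFunctionFieldFull M ≤ L.F₀)
    (h : Fermat.Agent.RED.BASE.Interface12.TMem n e M) : TMem n e L := by
  have hmono : ModularCurve.laurentBaseChange Kbar (ModularCurve.modularFunctionFieldFull M) ≤
      ModularCurve.laurentBaseChange Kbar L.F₀ := by
    unfold ModularCurve.laurentBaseChange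
    apply IntermediateField.adjoin.mono
    exact Set.image_mono hle
  exact hmono h

/-- monotonicity in the rational field. -/
theorem TMem.mono {L' : LevelData} (hle : L.F₀ ≤ L'.F₀) (h : TMem n e L) : TMem n e L' := by
  have hmono : ModularCurve.laurentBaseChange Kbar L.F₀ ≤
      ModularCurve.laurentBaseChange Kbar L'.F₀ := by
    unfold ModularCurve.laurentBaseChange
    apply IntermediateField.adjoin.mono
    exact Set.image_mono hle
  exact hmono h

end Exports

/-! ### sanity: the old notions are the instance `L0 M` -/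

section Sanity

variable (n e : ℕ) [NeZero n] (M : ℕ) [NeZero M]

theorem tMem_L0_iff : TMem n e (L0 M) ↔ Fermat.Agent.RED.BASE.Interface12.TMem n e M := Iff.rfl

theorem tIsGen_L0_iff :
    TIsGen n e (L0 M) ↔ Fermat.Agent.RED.BASE.Interface12.TIsGen n e M := Iff.rfl

end Sanity

end Fermat.Agent.DS.G.RED.BASE.Interface12
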