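/-
DS programme, chapter G-RED / BASE (helper89): generic twin of `RED/BASE/NoElliptic14`.

Level `L : LevelData` whose field contains the field of a level `n` WITHOUT elliptic points
(`ν₂(n) = ν₃(n) = 0`, e.g. `n = 4` or `9`): then every point place of `FFL L` has multiplicity one:
for `v = pointPlaceD D z₀ c hc g`, `ord_{z₀} (Θ u ∘ g⁻¹) = ord_v u` for all `u ∈ R`, `u ≠ 0`.

Proof (NEW, no counting at level `L`): restrict `v` to a place `w` of `FF n` along
`Fbar_n ≤ ℚbar·L.F₀` (`PlaceRestrict2`), `ord_v = e · ord_w` on `FF n`; `w` is a point place of level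
`n` (original `PointSurjT`), of multiplicity one (original `NoElliptic14`), so
`ord_w (j - c) = ellOrder z₀`; hence `ellOrder z₀ ≤ ord_v (j - c) ≤ ellOrder z₀`, and
`mult · ord_v (j - c) = ellOrder z₀` gives `mult = 1`.
-/
import Mathlib
import Fermat.Agent.DS.G.X0.PointSurjT
import Fermat.Agent.DS.G.X0.Degree
import Fermat.Agent.RED.BASE.NoElliptic14
import Fermat.Agent.RED.BASE.QExpMem19
import Fermat.Agent.RED.LVL.PlaceRestrict2

set_option autoImplicit false
set_option linter.unusedSectionVars false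

open UpperHalfPlane hiding I
open scoped MatrixGroups IntermediateField

noncomputable section

namespace Fermat.Agent.DS.G.RED.BASE.NoElliptic14

open Fermat.Agent.X0 Fermat.Agent.DS.G.Level AlgebraicCurve ModularCurve
open Fermat.Agent.DS.G.X0.PointPlaces Fermat.Agent.DS.G.X0.PointPlacesD
open Fermat.Agent.X0.JOrderMain

variable {L : LevelData}

/-- **Multiplicity one** at every point place of the level `L`. -/
def MultOne (D : RealizeDataK L) : Prop :=
  ∀ (z₀ : ℍ) (c : Kbar) (hc : jFun z₀ = iotaK c) (g : SL(2, ℤ)), pointMultD D z₀ c hc g = 1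

/-- Multiplicity one, spec form: analytic order at `z₀` = order at the place. -/
theorem ordH_eq_ord (D : RealizeDataK L) (hm : MultOne D)
    (z₀ : ℍ) (c : Kbar) (hc : jFun z₀ = iotaK c) (g : SL(2, ℤ)) (u : RsubL L) (hu : u ≠ 0) :
    ((ordH (compSL (D.Θ u) g⁻¹) z₀).toNat : ℤ) = (pointPlaceD D z₀ c hc g).ord (u : FFL L) := by
  have h := pointPlaceD_spec D z₀ c hc g u hu
  rw [hm z₀ c hc g] at h
  simpa using h

/-! ### The field of level `n` inside `ℚbar·L.F₀` -/

/-- `Fbar_n ≤ ℚbar·L.F₀` as soon as `F_n ≤ L.F₀`. -/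
theorem fbar_le {n : ℕ} [NeZero n] (hle : modularFunctionFieldFull n ≤ L.F₀) :
    modularFunctionFieldBar n ≤ laurentBaseChange Kbar L.F₀ := by
  unfold modularFunctionFieldBar laurentBaseChange
  apply IntermediateField.adjoin.mono
  exact Set.image_mono hle

/-- `ℚbar·L.F₀` is algebraic over `Fbar_n` (it is finite over `ℚbar(j)`). -/
theorem isAlgebraic_coe (n : ℕ) [NeZero n]
    (hfd : FiniteDimensional Kbar⟮jFL L⟯ (FFL L)) (x : FFL L) :
    IsAlgebraic (modularFunctionFieldBar n) (x : LaurentSeries Kbar) := by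
  have hx : IsAlgebraic Kbar⟮jFL L⟯ x := (IsIntegral.of_finite Kbar⟮jFL L⟯ x).isAlgebraic
  obtain ⟨p, hp0, hp⟩ := hx
  have hmem : ∀ a : Kbar⟮jFL L⟯,
      ((a : FFL L) : LaurentSeries Kbar) ∈ modularFunctionFieldBar n := by
    intro a
    have h1 : ((a : FFL L) : LaurentSeries Kbar) ∈
        IntermediateField.lift (Kbar⟮jFL L⟯ : IntermediateField Kbar (FFL L)) :=
      (IntermediateField.mem_lift (a : FFL L)).mpr a.2
    rw [IntermediateField.lift_adjoin_simple] at h1
    exact Fermat.Agent.RED.BASE.QExpMem19.K0_le n h1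
  let φ : Kbar⟮jFL L⟯ →+* modularFunctionFieldBar n :=
    { toFun := fun a => ⟨((a : FFL L) : LaurentSeries Kbar), hmem a⟩
      map_one' := rfl
      map_mul' := fun _ _ => rfl
      map_zero' := rfl
      map_add' := fun _ _ => rfl }
  refine ⟨p.map φ, (Polynomial.map_ne_zero_iff φ.injective).mpr hp0, ?_⟩
  rw [Polynomial.aeval_def, Polynomial.eval₂_map]
  have hcomp : (algebraMap (modularFunctionFieldBar n) (LaurentSeries Kbar)).comp φ
      = ((laurentBaseChange Kbar L.F₀).val : FFL L →+* LaurentSeries Kbar).comp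
        (algebraMap Kbar⟮jFL L⟯ (FFL L)) := rfl
  rw [hcomp]
  have h1 := Polynomial.hom_eval₂ p (algebraMap Kbar⟮jFL L⟯ (FFL L))
    ((laurentBaseChange Kbar L.F₀).val : FFL L →+* LaurentSeries Kbar) x
  rw [← Polynomial.aeval_def, hp, map_zero] at h1
  exact h1.symm

/-- restriction of a place of `FFL L` to `FF n`. -/
theorem exists_base_place {n : ℕ} [NeZero n] (hle : modularFunctionFieldFull n ≤ L.F₀)
    (hfd : FiniteDimensional Kbar⟮jFL L⟯ (FFL L)) (w : Place Kbar (FFL L)) :
    ∃ (w₀ : Place Kbar (FF n)) (k : ℕ), 0 < k ∧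
      ∀ f : FF n, w.ord (IntermediateField.inclusion (fbar_le hle) f) = (k : ℤ) * w₀.ord f := by
  obtain ⟨w₀, k, hk, h, -⟩ := Fermat.Agent.RED.LVL.PlaceRestrict2.exists_restrict_le
    (fbar_le hle) (isAlgebraic_coe n hfd) w
  exact ⟨w₀, k, hk, h⟩

/-- the inclusion sends `j - c` to `j - c`. -/
theorem inclusion_jF_sub {n : ℕ} [NeZero n] (hle : modularFunctionFieldFull n ≤ L.F₀) (c : Kbar) :
    IntermediateField.inclusion (fbar_le hle) (jF n - algebraMap Kbar (FF n) c)
      = jFL L - algebraMap Kbar (FFL L) c := by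
  rw [map_sub, AlgHom.commutes]
  congr 1
  apply Subtype.ext
  show ((jF n : FF n) : LaurentSeries Kbar) = ((jFL L : FFL L) : LaurentSeries Kbar)
  rw [coe_jF]
  rfl

/-- the inclusion sends `j` to `j`. -/
theorem inclusion_jF {n : ℕ} [NeZero n] (hle : modularFunctionFieldFull n ≤ L.F₀) :
    IntermediateField.inclusion (fbar_le hle) (jF n) = jFL L := by
  apply Subtype.ext
  show ((jF n : FF n) : LaurentSeries Kbar) = ((jFL L : FFL L) : LaurentSeries Kbar)
  rw [coe_jF]
  rfl

/-- **Multiplicity one** at the level `L`, from a sublevel `n` without elliptic points. -/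
theorem multOne_of_le (n : ℕ) [NeZero n]
    (h2 : ModularCurve.nuTwo n = 0) (h3 : ModularCurve.nuThree n = 0)
    (hle : modularFunctionFieldFull n ≤ L.F₀)
    (D : RealizeDataK L) (C : CuspDataK L D) (hC : C.Distinct) : MultOne D := by
  intro z₀ c hc g
  have hfd := Fermat.Agent.DS.G.X0.Degree.finiteDimensional_adjoin L D C hC
  set v := pointPlaceD D z₀ c hc g with hv
  obtain ⟨w, k, hk, hres⟩ := exists_base_place hle hfd v
  have hk' : (1 : ℤ) ≤ k := by exact_mod_cast hk
  have hvpos : 0 < v.ord (jFL L - algebraMap Kbar (FFL L) c) := pointPlaceD_ord_pos D z₀ c hc g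
  have hvle : v.ord (jFL L - algebraMap Kbar (FFL L) c) ≤ ellOrder z₀ :=
    pointPlaceD_ord_le D z₀ c hc g
  have hrj := hres (jF n - algebraMap Kbar (FF n) c)
  rw [inclusion_jF_sub hle c] at hrj
  have hwpos : 0 < w.ord (jF n - algebraMap Kbar (FF n) c) := by
    by_contra hneg
    rw [not_lt] at hneg
    nlinarith
  -- `w` is a point place of level `n`, of multiplicity one
  obtain ⟨g', hg'⟩ := Fermat.Agent.X0.PointSurjT.exists_pointPlaceD_eq (realizeData n) z₀
    (cuspData n) c hc w hwpos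
  have hm₀ := Fermat.Agent.RED.BASE.NoElliptic14.pointMultD_eq_one (realizeData n) (cuspData n)
    h2 h3 z₀ c hc g'
  have hkey₀ := Fermat.Agent.X0.PointPlacesD.pointMultD_mul_ord (realizeData n) z₀ c hc g'
  rw [hm₀, hg'] at hkey₀
  have hw : w.ord (jF n - algebraMap Kbar (FF n) c) = ellOrder z₀ := by
    simpa using hkey₀
  have hell : (0 : ℤ) < ellOrder z₀ := by exact_mod_cast ellOrder_pos z₀
  have hveq : v.ord (jFL L - algebraMap Kbar (FFL L) c) = ellOrder z₀ := by
    apply le_antisymm hvle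
    rw [hrj, hw]
    nlinarith
  have hkey := pointMultD_mul_ord D z₀ c hc g
  rw [← hv, hveq] at hkey
  have hmpos : (0 : ℤ) < pointMultD D z₀ c hc g := by exact_mod_cast pointMultD_pos D z₀ c hc g
  have : (pointMultD D z₀ c hc g : ℤ) = 1 := by
    have h1 : ((pointMultD D z₀ c hc g : ℤ) - 1) * (ellOrder z₀ : ℤ) = 0 := by
      rw [sub_mul, hkey, one_mul, sub_self]
    rcases mul_eq_zero.mp h1 with h | h
    · linarith
    · exfalso; linarith
  exact_mod_cast this

/-- the two standard cases: `4 ∣ n` or `9 ∣ n`. -/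
theorem multOne_of_four_or_nine (n : ℕ) [NeZero n] (hn : 4 ∣ n ∨ 9 ∣ n)
    (hle : modularFunctionFieldFull n ≤ L.F₀)
    (D : RealizeDataK L) (C : CuspDataK L D) (hC : C.Distinct) : MultOne D :=
  multOne_of_le n
    (hn.elim Fermat.Agent.RED.BASE.NoElliptic14.nuTwo_eq_zero_of_four_dvd
      Fermat.Agent.RED.BASE.NoElliptic14.nuTwo_eq_zero_of_nine_dvd)
    (hn.elim Fermat.Agent.RED.BASE.NoElliptic14.nuThree_eq_zero_of_four_dvd
      Fermat.Agent.RED.BASE.NoElliptic14.nuThree_eq_zero_of_nine_dvd)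
    hle D C hC

end Fermat.Agent.DS.G.RED.BASE.NoElliptic14
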