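/-
DS programme, chapter G-RED / BASE (helper89): generic twin of `RED/BASE/Unbranched14`, item (B6):
a Hauptmodul of a base level `N₀` is unbranched on the curve of an abstract level `L`.

Setting: a base level `N₀` without elliptic points (`ν₂ = ν₃ = 0`: `4 ∣ N₀` or `9 ∣ N₀`; this side is
the ORIGINAL `Γ₀(N₀)` library), a level `L : LevelData` with multiplicity one at all point places
(`NoElliptic14.MultOne D`), a holomorphic function `τ : ℍ → ℂ` realising an element `t₀` of `FF N₀`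
and an element `t` of `FFL L`, such that `t₀` generates `FF N₀` over `ℚbar` (degree one).  Then at
every place `v` of `FFL L` that is not a pole of `j`, and every constant `c`:
`0 < ord_v (t - c) → ord_v (t - c) = 1`.
-/
import Mathlib
import Fermat.Agent.DS.G.RED.BASE.NoElliptic14
import Fermat.Agent.DS.G.X0.SurjInst
import Fermat.Agent.X0.FFConst
import Fermat.Agent.RED.BASE.Unbranched14

set_option autoImplicit false
set_option linter.unusedSectionVars false

open UpperHalfPlane hiding I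
open scoped MatrixGroups IntermediateField

noncomputable section

namespace Fermat.Agent.DS.G.RED.BASE.Unbranched14

open Fermat.Agent.X0 Fermat.Agent.DS.G.Level AlgebraicCurve
open Fermat.Agent.DS.G.X0.PointPlaces Fermat.Agent.DS.G.X0.PointPlacesD
open Fermat.Agent.X0.FF
open Fermat.Agent.DS.G.RED.BASE.NoElliptic14
open Fermat.Agent.RED.BASE.Unbranched14 (ord_eq_one_of_finrank_eq_one)

variable {L : LevelData}

/-- `t ∈ FFL L` is the modular function `τ`: `t = a / b` with `a, b ∈ R`, `Θ a = Θ b · τ`. -/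
def IsRealizedBy (D : RealizeDataK L) (t : FFL L) (τ : ℍ → ℂ) : Prop :=
  ∃ a b : RsubL L, b ≠ 0 ∧ t * (b : FFL L) = (a : FFL L) ∧ ∀ z, D.Θ a z = D.Θ b z * τ z

theorem isRealizedBy_coe (D : RealizeDataK L) (u : RsubL L) :
    IsRealizedBy D (u : FFL L) (D.Θ u) :=
  ⟨u, 1, one_ne_zero, by simp, fun z => by simp⟩

/-- **(B1)** At a level with multiplicity one, the order of `t - c` at a point place is the
analytic order of `(τ - c) ∘ g⁻¹` at `z₀`. -/
theorem ord_sub_eq_ordH (D : RealizeDataK L) (hm : MultOne D)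
    {t : FFL L} {τ : ℍ → ℂ} (hτ : τ ∈ HolH) (ht : IsRealizedBy D t τ)
    (z₀ : ℍ) (cj : Kbar) (hc : jFun z₀ = iotaK cj) (g : SL(2, ℤ)) (c : Kbar)
    (hne : t - algebraMap Kbar (FFL L) c ≠ 0) :
    (pointPlaceD D z₀ cj hc g).ord (t - algebraMap Kbar (FFL L) c) =
      ((ordH (compSL (fun z => τ z - iotaK c) g⁻¹) z₀).toNat : ℤ) := by
  obtain ⟨a, b, hb, hab, hΘ⟩ := ht
  set v := pointPlaceD D z₀ cj hc g with hv
  set u : RsubL L := a - algebraMap Kbar (RsubL L) c * b with hu
  have hbF : (b : FFL L) ≠ 0 := fun h => hb (Subtype.ext h)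
  -- algebraic side
  have hmul : (t - algebraMap Kbar (FFL L) c) * (b : FFL L) = (u : FFL L) := by
    rw [hu, sub_mul, hab]
    push_cast
    rfl
  have huF : (u : FFL L) ≠ 0 := by
    rw [← hmul]
    exact mul_ne_zero hne hbF
  have hu0 : u ≠ 0 := fun h => huF (by rw [h]; rfl)
  have hord : v.ord (t - algebraMap Kbar (FFL L) c) + v.ord (b : FFL L) = v.ord (u : FFL L) := by
    rw [← hmul, Place.ord_mul v hne hbF]
  -- analytic side
  have hΘu : D.Θ u = D.Θ b * fun z => τ z - iotaK c := by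
    rw [hu, map_sub, map_mul, D.algebraMap_eq]
    funext z
    simp only [Pi.sub_apply, Pi.mul_apply, hΘ z]
    ring
  have hσ : (fun z => τ z - iotaK c) ∈ HolH :=
    HolH.sub_mem hτ (HolH.algebraMap_mem (iotaK c))
  have hcomp : compSL (D.Θ u) g⁻¹ =
      compSL (D.Θ b) g⁻¹ * compSL (fun z => τ z - iotaK c) g⁻¹ := by
    rw [hΘu, compSL_mul_fun]
  have hordH : ordH (compSL (D.Θ u) g⁻¹) z₀ =
      ordH (compSL (D.Θ b) g⁻¹) z₀ + ordH (compSL (fun z => τ z - iotaK c) g⁻¹) z₀ := by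
    rw [hcomp, ordH_mul (compSL_mem_HolH (D.mem_HolH b) g⁻¹) (compSL_mem_HolH hσ g⁻¹)]
  have htopu := ordH_ne_top_D D z₀ g u hu0
  have htopb := ordH_ne_top_D D z₀ g b hb
  have htopσ : ordH (compSL (fun z => τ z - iotaK c) g⁻¹) z₀ ≠ ⊤ := by
    intro h
    rw [h, add_top] at hordH
    exact htopu hordH
  have e1 := ordH_eq_ord D hm z₀ cj hc g u hu0
  have e2 := ordH_eq_ord D hm z₀ cj hc g b hb
  have e3 : ((ordH (compSL (D.Θ u) g⁻¹) z₀).toNat : ℤ) =
      ((ordH (compSL (D.Θ b) g⁻¹) z₀).toNat : ℤ) +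
        ((ordH (compSL (fun z => τ z - iotaK c) g⁻¹) z₀).toNat : ℤ) := by
    rw [hordH, ENat.toNat_add htopb htopσ]
    push_cast
    rfl
  rw [← hv] at e1 e2
  linarith

/-- Every place of `FFL L` that is not a pole of `j` is a point place. -/
theorem exists_pointPlaceD_eq_of_ord_nonneg (D : RealizeDataK L) (C : CuspDataK L D)
    (hC : C.Distinct) (v : Place Kbar (FFL L)) (hv : 0 ≤ v.ord (jFL L)) :
    ∃ (z₀ : ℍ) (cj : Kbar) (hc : jFun z₀ = iotaK cj) (g : SL(2, ℤ)),
      pointPlaceD D z₀ cj hc g = v :=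
  by
  have hι : Function.Injective iotaK := iotaK.injective
  have hgen := Fermat.Agent.DS.G.X0.DegreeLc.isGen_jF hι L D C hC
  have hmem : jFL L ∈ v.toValuationSubring := (FF.ffp_mem_iff_ord_nonneg v).mpr hv
  obtain ⟨cj, hcj | hcj⟩ := FF.exists_ord_sub_pos hgen v hmem
  · exfalso
    apply Fermat.Agent.DS.G.X0.DegreeLc.transcendental_jFc Kbar L
    rw [show jFc L Kbar = algebraMap Kbar (FFc L Kbar) cj from hcj]
    exact isAlgebraic_algebraMap cj
  · obtain ⟨z₀, hz₀⟩ := jFun_surjective (iotaK cj)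
    obtain ⟨g, hg⟩ :=
      Fermat.Agent.DS.G.X0.SurjInst.exists_pointPlaceD_eq hι L D C hC z₀ cj hz₀ v hcj
    exact ⟨z₀, cj, hz₀, g, hg⟩

/-- **(B6), two-level form.** `t₀ ∈ FF N₀` of degree one and `t ∈ FFL L` are realised by the same
holomorphic function, both levels have multiplicity one: then `t` is unbranched at all places of
`FFL L` that are not poles of `j`. -/
theorem ord_sub_eq_one {N₀ : ℕ} [NeZero N₀] (D : RealizeDataK L) (C : CuspDataK L D)
    (hC : C.Distinct) (hm : MultOne D)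
    (D₀ : RealizeData N₀) (C₀ : CuspData N₀ D₀)
    (h2₀ : ModularCurve.nuTwo N₀ = 0) (h3₀ : ModularCurve.nuThree N₀ = 0)
    {t : FFL L} {t₀ : FF N₀} {τ : ℍ → ℂ} (hτ : τ ∈ HolH)
    (ht : IsRealizedBy D t τ) (ht₀ : Fermat.Agent.RED.BASE.Unbranched14.IsRealizedBy D₀ t₀ τ)
    (hgen : IsGen Kbar t₀) (hdeg : Module.finrank Kbar⟮t₀⟯ (FF N₀) = 1)
    (v : Place Kbar (FFL L)) (hv : 0 ≤ v.ord (jFL L)) (c : Kbar)
    (hpos : 0 < v.ord (t - algebraMap Kbar (FFL L) c)) :
    v.ord (t - algebraMap Kbar (FFL L) c) = 1 := by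
  obtain ⟨z₀, cj, hc, g, rfl⟩ := exists_pointPlaceD_eq_of_ord_nonneg D C hC v hv
  have hne : t - algebraMap Kbar (FFL L) c ≠ 0 := by
    intro h
    rw [h, Place.ord_zero] at hpos
    exact lt_irrefl _ hpos
  have hne₀ : t₀ - algebraMap Kbar (FF N₀) c ≠ 0 := by
    intro h
    apply hgen.transcendental
    rw [sub_eq_zero.mp h]
    exact isAlgebraic_algebraMap c
  have e := ord_sub_eq_ordH D hm hτ ht z₀ cj hc g c hne
  have e₀ := Fermat.Agent.RED.BASE.Unbranched14.ord_sub_eq_ordH D₀ C₀ h2₀ h3₀ hτ ht₀ z₀ cj hc g c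
    hne₀
  rw [e] at hpos ⊢
  rw [← e₀] at hpos ⊢
  exact ord_eq_one_of_finrank_eq_one hgen hdeg c _ hpos

/-- A function realised by a holomorphic `τ` has no pole at a point place. -/
theorem ord_nonneg_of_isRealizedBy (D : RealizeDataK L) (hm : MultOne D)
    {t : FFL L} {τ : ℍ → ℂ} (hτ : τ ∈ HolH) (ht : IsRealizedBy D t τ)
    (z₀ : ℍ) (cj : Kbar) (hc : jFun z₀ = iotaK cj) (g : SL(2, ℤ)) :
    0 ≤ (pointPlaceD D z₀ cj hc g).ord t := by
  rcases eq_or_ne t 0 with rfl | h0
  · rw [Place.ord_zero]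
  have hne : t - algebraMap Kbar (FFL L) 0 ≠ 0 := by rwa [map_zero, sub_zero]
  have e := ord_sub_eq_ordH D hm hτ ht z₀ cj hc g 0 hne
  rw [map_zero, sub_zero] at e
  rw [e]
  positivity

/-- If `t` is realised by `τ` and is a constant, then `τ` is that constant. -/
theorem eq_const_of_isRealizedBy (D : RealizeDataK L) {t : FFL L} {τ : ℍ → ℂ} (hτ : τ ∈ HolH)
    (ht : IsRealizedBy D t τ) (c : Kbar) (htc : t = algebraMap Kbar (FFL L) c) :
    τ = fun _ => iotaK c := by
  obtain ⟨a, b, hb, hab, hΘ⟩ := ht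
  have hab' : a = algebraMap Kbar (RsubL L) c * b := by
    apply Subtype.ext
    rw [← hab, htc]
    push_cast
    rfl
  have hΘb : D.Θ b ≠ 0 := fun h => hb (D.injective (by rw [h, map_zero]))
  have hσ : (fun z => τ z - iotaK c) ∈ HolH :=
    HolH.sub_mem hτ (HolH.algebraMap_mem (iotaK c))
  have hprod : D.Θ b * (fun z => τ z - iotaK c) = 0 := by
    funext z
    have h1 := hΘ z
    rw [hab', map_mul, D.algebraMap_eq] at h1
    simp only [Pi.mul_apply, Pi.zero_apply] at h1 ⊢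
    linear_combination -h1
  rcases mul_eq_zero_HolH (D.mem_HolH b) hσ hprod with h | h
  · exact absurd h hΘb
  · funext z
    have := congrFun h z
    simp only [Pi.zero_apply] at this
    linear_combination this

/-- If `t` is realised by a constant function, it is that constant. -/
theorem eq_algebraMap_of_isRealizedBy_const (D : RealizeDataK L) {t : FFL L} (c : Kbar)
    (ht : IsRealizedBy D t fun _ => iotaK c) : t = algebraMap Kbar (FFL L) c := by
  obtain ⟨a, b, hb, hab, hΘ⟩ := ht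
  have hbF : (b : FFL L) ≠ 0 := fun h => hb (Subtype.ext h)
  have hab' : a = algebraMap Kbar (RsubL L) c * b := by
    apply D.injective
    rw [map_mul, D.algebraMap_eq]
    funext z
    rw [hΘ z, Pi.mul_apply]
    ring
  have : t * (b : FFL L) = algebraMap Kbar (FFL L) c * (b : FFL L) := by
    rw [hab, hab']
    push_cast
    rfl
  exact mul_right_cancel₀ hbF this

/-- Transcendence transfers from the base level to the level `L` for two elements realised by
the same function. -/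
theorem transcendental_of_isRealizedBy {N₀ : ℕ} [NeZero N₀] (D : RealizeDataK L)
    (D₀ : RealizeData N₀) {t : FFL L} {t₀ : FF N₀} {τ : ℍ → ℂ} (hτ : τ ∈ HolH)
    (ht : IsRealizedBy D t τ) (ht₀ : Fermat.Agent.RED.BASE.Unbranched14.IsRealizedBy D₀ t₀ τ)
    (htr : Transcendental Kbar t₀) :
    Transcendental Kbar t := by
  intro halg
  obtain ⟨c, hc⟩ := eq_algebraMap_of_isAlgebraic halg
  have hconst := eq_const_of_isRealizedBy D hτ ht c hc
  rw [hconst] at ht₀
  apply htr
  rw [Fermat.Agent.RED.BASE.Unbranched14.eq_algebraMap_of_isRealizedBy_const D₀ c ht₀]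
  exact isAlgebraic_algebraMap c

/-- **(B6)**: at every place `v` of `FFL L` that is not a pole of `j`, `t` has a value `c` and
`t - c` is a uniformiser at `v`. -/
theorem exists_ord_sub_eq_one {N₀ : ℕ} [NeZero N₀] (D : RealizeDataK L) (C : CuspDataK L D)
    (hC : C.Distinct) (hm : MultOne D)
    (D₀ : RealizeData N₀) (C₀ : CuspData N₀ D₀)
    (h2₀ : ModularCurve.nuTwo N₀ = 0) (h3₀ : ModularCurve.nuThree N₀ = 0)
    {t : FFL L} {t₀ : FF N₀} {τ : ℍ → ℂ} (hτ : τ ∈ HolH)
    (ht : IsRealizedBy D t τ) (ht₀ : Fermat.Agent.RED.BASE.Unbranched14.IsRealizedBy D₀ t₀ τ)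
    (hgen : IsGen Kbar t₀) (hdeg : Module.finrank Kbar⟮t₀⟯ (FF N₀) = 1)
    (v : Place Kbar (FFL L)) (hv : 0 ≤ v.ord (jFL L)) :
    ∃ c : Kbar, v.ord (t - algebraMap Kbar (FFL L) c) = 1 := by
  have htr := transcendental_of_isRealizedBy D D₀ hτ ht ht₀ hgen.transcendental
  have hgenj := Fermat.Agent.DS.G.X0.Degree.isGen_jF L D C hC
  have htv : 0 ≤ v.ord t := by
    obtain ⟨z₀, cj, hc, g, rfl⟩ := exists_pointPlaceD_eq_of_ord_nonneg D C hC v hv
    exact ord_nonneg_of_isRealizedBy D hm hτ ht z₀ cj hc g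
  have hmem : t ∈ v.toValuationSubring := (ffp_mem_iff_ord_nonneg v).mpr htv
  obtain ⟨c, hc | hc⟩ := exists_ord_sub_pos hgenj v hmem
  · exfalso
    apply htr
    rw [hc]
    exact isAlgebraic_algebraMap c
  · exact ⟨c, ord_sub_eq_one D C hC hm D₀ C₀ h2₀ h3₀ hτ ht ht₀ hgen hdeg v hv c hc⟩

end Fermat.Agent.DS.G.RED.BASE.Unbranched14
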