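/-
DS programme, chapter G-RED / BASE (helper89): generic twin of `RED/BASE/UnbranchedMain14`:
**(B6)** in the literal shape of the `Interface12` twin, at an abstract level `L : LevelData` whose
field contains the field of the base level `n` (`4 ∣ n` or `9 ∣ n`).
-/
import Mathlib
import Fermat.Agent.DS.G.RED.BASE.Unbranched14
import Fermat.Agent.DS.G.RED.BASE.Interface12
import Fermat.Agent.RED.BASE.UnbranchedMain14

set_option autoImplicit false
set_option linter.unusedSectionVars false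

open UpperHalfPlane hiding I
open scoped MatrixGroups IntermediateField

namespace Fermat.Agent.DS.G.RED.BASE.UnbranchedMain14

open Fermat.Agent.X0 Fermat.Agent.DS.G.Level AlgebraicCurve ModularCurve
open Fermat.Agent.X0.FF
open Fermat.Agent.DS.G.RED.BASE.NoElliptic14 Fermat.Agent.DS.G.RED.BASE.Unbranched14
open Fermat.Agent.DS.G.RED.BASE.Interface12 Fermat.Agent.RED.BASE.EtaQuot12
open Fermat.Agent.RED.BASE.UnbranchedMain14 (nuTwo_eq_zero nuThree_eq_zero isGen_of_adjoin_eq_top)

/-- **(B6)**, literal `Interface12` shape, at the level `L`. -/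
theorem unbranched (n e : ℕ) [NeZero n] (L : LevelData) (D : RealizeDataK L) (C : CuspDataK L D)
    (hC : C.Distinct) (hn : 4 ∣ n ∨ 9 ∣ n) (hle : modularFunctionFieldFull n ≤ L.F₀)
    (hR₀ : Fermat.Agent.RED.BASE.Interface12.TRealize n e n) (hR : TRealize n e L D)
    (hG : Fermat.Agent.RED.BASE.Interface12.TGenBase n e) : Unbranched n e L := by
  have hm : MultOne D := multOne_of_four_or_nine n hn hle D C hC
  obtain ⟨h₀, a₀, b₀, hb₀, hab₀, hΘ₀⟩ := hR₀
  obtain ⟨h, a, b, hb, hab, hΘ⟩ := hR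
  obtain ⟨h₀', htop⟩ := hG
  obtain ⟨hgen, hdeg⟩ := isGen_of_adjoin_eq_top (transcendental_jF n) htop
  refine ⟨h, fun v hv => ?_⟩
  exact exists_ord_sub_eq_one D C hC hm (realizeData n) (cuspData n)
    (nuTwo_eq_zero hn) (nuThree_eq_zero hn)
    (tauFun_mem_HolH n e) ⟨a, b, hb, hab, hΘ⟩ ⟨a₀, b₀, hb₀, hab₀, hΘ₀⟩ hgen hdeg v hv

end Fermat.Agent.DS.G.RED.BASE.UnbranchedMain14
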