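/-
DS programme, chapter G-RED / BASE (helper89): generic twin of `RED/BASE/FiniteAvoids14` +
`RED/BASE/FiniteAvoidsM14`: **FiniteAvoidsCusps** at an abstract level `L : LevelData`.

A finite cusp value `c` of the Hauptmodul `t` (i.e. `t - c` vanishes at a place of the base level
`n` lying over `j = ∞`) is not attained at any place `v` of `FFL L` with `0 ≤ ord_v j`:
`ord_v (t - c) = 0`; contrapositive: places over a finite cusp value are cusp places.
The cusp value function `cv` may be taken at the base level `n` (original `CuspExp n e n cv`) or at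
the level `L` (`CuspExp n e L C cv` of the `Interface12` twin).
-/
import Mathlib
import Fermat.Agent.DS.G.RED.BASE.UnbranchedMain14
import Fermat.Agent.DS.G.X0.CuspGood
import Fermat.Agent.DS.G.X0.CuspPlaces
import Fermat.Agent.RED.BASE.FiniteAvoidsM14

set_option autoImplicit false
set_option linter.unusedSectionVars false

open UpperHalfPlane hiding I
open scoped MatrixGroups IntermediateField

namespace Fermat.Agent.DS.G.RED.BASE.FiniteAvoids14

open Fermat.Agent.X0 Fermat.Agent.DS.G.Level AlgebraicCurve ModularCurve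
open Fermat.Agent.DS.G.X0.PointPlaces Fermat.Agent.DS.G.X0.PointPlacesD
open Fermat.Agent.DS.G.X0.CuspPlaces
open Fermat.Agent.X0.FF
open Fermat.Agent.DS.G.RED.BASE.NoElliptic14 Fermat.Agent.DS.G.RED.BASE.Unbranched14
open Fermat.Agent.DS.G.RED.BASE.Interface12 Fermat.Agent.RED.BASE.EtaQuot12
open Fermat.Agent.RED.BASE.UnbranchedMain14 (nuTwo_eq_zero nuThree_eq_zero isGen_of_adjoin_eq_top)
open Fermat.Agent.RED.BASE.FiniteAvoids14 (zero_unique_of_finrank_eq_one order_cuspTail)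

variable {L : LevelData}

/-- If `t₀ - c` vanishes at a place `w₀` of the base level over `j = ∞`, then `t - c` has order
`0` at every place of `FFL L` not over `j = ∞`. -/
theorem ord_sub_eq_zero {N₀ : ℕ} [NeZero N₀] (D : RealizeDataK L) (C : CuspDataK L D)
    (hC : C.Distinct) (hm : MultOne D)
    (D₀ : RealizeData N₀) (C₀ : CuspData N₀ D₀)
    (h2₀ : ModularCurve.nuTwo N₀ = 0) (h3₀ : ModularCurve.nuThree N₀ = 0)
    {t : FFL L} {t₀ : FF N₀} {τ : ℍ → ℂ} (hτ : τ ∈ HolH)
    (ht : IsRealizedBy D t τ) (ht₀ : Fermat.Agent.RED.BASE.Unbranched14.IsRealizedBy D₀ t₀ τ)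
    (hgen : IsGen Kbar t₀) (hdeg : Module.finrank Kbar⟮t₀⟯ (FF N₀) = 1)
    (c : Kbar) (w₀ : Place Kbar (FF N₀)) (hw₀j : w₀.ord (jF N₀) < 0)
    (hw₀ : 0 < w₀.ord (t₀ - algebraMap Kbar (FF N₀) c))
    (v : Place Kbar (FFL L)) (hv : 0 ≤ v.ord (jFL L)) :
    v.ord (t - algebraMap Kbar (FFL L) c) = 0 := by
  obtain ⟨z₀, cj, hc, g, rfl⟩ := exists_pointPlaceD_eq_of_ord_nonneg D C hC v hv
  have htr := transcendental_of_isRealizedBy D D₀ hτ ht ht₀ hgen.transcendental
  have hne : t - algebraMap Kbar (FFL L) c ≠ 0 := by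
    intro h
    apply htr
    rw [sub_eq_zero.mp h]
    exact isAlgebraic_algebraMap c
  have hne₀ : t₀ - algebraMap Kbar (FF N₀) c ≠ 0 := by
    intro h
    apply hgen.transcendental
    rw [sub_eq_zero.mp h]
    exact isAlgebraic_algebraMap c
  have e := ord_sub_eq_ordH D hm hτ ht z₀ cj hc g c hne
  have e₀ := Fermat.Agent.RED.BASE.Unbranched14.ord_sub_eq_ordH D₀ C₀ h2₀ h3₀ hτ ht₀ z₀ cj hc g c
    hne₀
  by_contra h0
  have hpos : 0 < (Fermat.Agent.X0.PointPlacesD.pointPlaceD D₀ z₀ cj hc g).ord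
      (t₀ - algebraMap Kbar (FF N₀) c) := by
    rw [e₀, ← e]
    have : 0 ≤ (pointPlaceD D z₀ cj hc g).ord (t - algebraMap Kbar (FFL L) c) := by
      rw [e]
      positivity
    omega
  have heq := zero_unique_of_finrank_eq_one hgen hdeg c _ _ hpos hw₀
  have := Fermat.Agent.RED.BASE.FiniteAvoids14.ord_jF_nonneg_pointPlaceD D₀ z₀ cj hc g
  rw [heq] at this
  omega

/-- A positive order of the cusp expansion `C.T γ f` gives a zero of `f` at a place over `∞`. -/
theorem exists_place_of_order_pos (D : RealizeDataK L) (C : CuspDataK L D) (γ : SL(2, ℤ))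
    (f : FFL L) (hf : 0 < (C.T γ f).order) :
    ∃ w : Place Kbar (FFL L), w.ord (jFL L) < 0 ∧ 0 < w.ord f := by
  have hC := Fermat.Agent.DS.G.X0.CuspGood.good C
  have hf0 : f ≠ 0 := by
    rintro rfl
    rw [map_zero, HahnSeries.order_zero] at hf
    exact lt_irrefl _ hf
  -- NB: `cuspPlace hC γ⁻¹` must be elaborated WITHOUT expected type (otherwise unification runs
  -- into a very slow instance check), hence the `generalize` below.
  have h1 := cuspPlace_ord_jF_neg hC γ⁻¹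
  obtain ⟨m, hm, hspec, -⟩ := cuspPlace_spec hC γ⁻¹
  have h := hspec f hf0
  rw [inv_inv] at h
  rw [h] at hf
  have hm' : (0 : ℤ) < m := by exact_mod_cast hm
  generalize cuspPlace hC γ⁻¹ = w at h1 hf
  refine ⟨w, h1, ?_⟩
  by_contra hneg
  rw [not_lt] at hneg
  nlinarith

/-- **FiniteAvoidsCusps**, the cusp value function `cv` is the one of the BASE level `n`. -/
theorem finiteAvoidsCusps_base (n e : ℕ) [NeZero n] (D : RealizeDataK L) (C : CuspDataK L D)
    (hC : C.Distinct) (hn : 4 ∣ n ∨ 9 ∣ n) (hle : modularFunctionFieldFull n ≤ L.F₀)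
    (hR₀ : Fermat.Agent.RED.BASE.Interface12.TRealize n e n) (hR : TRealize n e L D)
    (hG : Fermat.Agent.RED.BASE.Interface12.TGenBase n e)
    (cv : SL(2, ℤ) → Option Kbar) (hcv : Fermat.Agent.RED.BASE.Interface12.CuspExp n e n cv) :
    ∃ h : TMem n e L, ∀ v : Place Kbar (FFL L), 0 ≤ v.ord (jFL L) →
      ∀ (γ : SL(2, ℤ)) (c : Kbar), cv γ = some c →
        v.ord (tF L h - algebraMap Kbar (FFL L) c) = 0 := by
  have hm : MultOne D := multOne_of_four_or_nine n hn hle D C hC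
  obtain ⟨h₀, a₀, b₀, hb₀, hab₀, hΘ₀⟩ := hR₀
  obtain ⟨h, a, b, hb, hab, hΘ⟩ := hR
  obtain ⟨h₀', htop⟩ := hG
  obtain ⟨h₀'', hshape⟩ := hcv
  obtain ⟨hgen, hdeg⟩ := isGen_of_adjoin_eq_top (transcendental_jF n) htop
  refine ⟨h, fun v hv γ c hγ => ?_⟩
  have hs := hshape γ
  rw [hγ] at hs
  obtain ⟨k, lam, V, hk, hlam, hV, -, -, hE⟩ := hs
  have hgood := Fermat.Agent.X0.CuspGood.good (cuspData n)
  have hord : 0 < ((cuspData n).T γ
      (Fermat.Agent.RED.BASE.Interface12.tF n h₀ - algebraMap Kbar (FF n) c)).order := by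
    have : (cuspData n).T γ
        (Fermat.Agent.RED.BASE.Interface12.tF n h₀ - algebraMap Kbar (FF n) c) =
        HahnSeries.C lam * HahnSeries.single (k : ℤ) 1 * HahnSeries.ofPowerSeries ℤ Kbar V := by
      rw [map_sub, hgood.map_const, hE]
      ring
    rw [this, order_cuspTail k lam hlam.1 V hV]
    exact_mod_cast hk
  obtain ⟨w₀, hw₀j, hw₀⟩ := Fermat.Agent.RED.BASE.FiniteAvoids14.exists_place_of_order_pos
    (realizeData n) (cuspData n) γ _ hord
  exact ord_sub_eq_zero D C hC hm (realizeData n) (cuspData n)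
    (nuTwo_eq_zero hn) (nuThree_eq_zero hn)
    (tauFun_mem_HolH n e) ⟨a, b, hb, hab, hΘ⟩ ⟨a₀, b₀, hb₀, hab₀, hΘ₀⟩ hgen hdeg c w₀ hw₀j hw₀ v hv

/-- **FiniteAvoidsCusps**, `cv` at the level `L`. -/
theorem finiteAvoidsCusps (n e : ℕ) [NeZero n] (D : RealizeDataK L) (C : CuspDataK L D)
    (hC : C.Distinct) (hn : 4 ∣ n ∨ 9 ∣ n) (hle : modularFunctionFieldFull n ≤ L.F₀)
    (hR₀ : Fermat.Agent.RED.BASE.Interface12.TRealize n e n) (hR : TRealize n e L D)
    (hG : Fermat.Agent.RED.BASE.Interface12.TGenBase n e)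
    (cv : SL(2, ℤ) → Option Kbar) (hcv : CuspExp n e L C cv) :
    ∃ h : TMem n e L, ∀ v : Place Kbar (FFL L), 0 ≤ v.ord (jFL L) →
      ∀ (γ : SL(2, ℤ)) (c : Kbar), cv γ = some c →
        v.ord (tF L h - algebraMap Kbar (FFL L) c) = 0 := by
  have hm : MultOne D := multOne_of_four_or_nine n hn hle D C hC
  have hfd := Fermat.Agent.DS.G.X0.Degree.finiteDimensional_adjoin L D C hC
  obtain ⟨h₀, a₀, b₀, hb₀, hab₀, hΘ₀⟩ := hR₀
  obtain ⟨h, a, b, hb, hab, hΘ⟩ := hR
  obtain ⟨h₀', htop⟩ := hG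
  obtain ⟨h'', hshape⟩ := hcv
  obtain ⟨hgen, hdeg⟩ := isGen_of_adjoin_eq_top (transcendental_jF n) htop
  refine ⟨h, fun v hv γ c hγ => ?_⟩
  have hs := hshape γ
  rw [hγ] at hs
  obtain ⟨k, lam, V, hk, hlam, hV, -, -, hE⟩ := hs
  have hgood := Fermat.Agent.DS.G.X0.CuspGood.good C
  have hord : 0 < (C.T γ (tF L h - algebraMap Kbar (FFL L) c)).order := by
    have : C.T γ (tF L h - algebraMap Kbar (FFL L) c) =
        HahnSeries.C lam * HahnSeries.single (k : ℤ) 1 * HahnSeries.ofPowerSeries ℤ Kbar V := by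
      rw [map_sub, hgood.map_const, hE]
      ring
    rw [this, order_cuspTail k lam hlam.1 V hV]
    exact_mod_cast hk
  obtain ⟨w, hwj, hw⟩ := exists_place_of_order_pos D C γ _ hord
  obtain ⟨w₀, m, hm', hres⟩ := exists_base_place hle hfd w
  have hmpos : (0 : ℤ) < m := by exact_mod_cast hm'
  -- compatibility of `j`, `t`, constants with the inclusion
  have hj : IntermediateField.inclusion (fbar_le hle) (jF n) = jFL L := inclusion_jF hle
  have ht : IntermediateField.inclusion (fbar_le hle)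
      (Fermat.Agent.RED.BASE.Interface12.tF n h₀ - algebraMap Kbar (FF n) c)
      = tF L h - algebraMap Kbar (FFL L) c := by
    rw [map_sub, AlgHom.commutes]
    rfl
  have hw₀j : w₀.ord (jF n) < 0 := by
    have := hres (jF n)
    rw [hj] at this
    by_contra hneg
    rw [not_lt] at hneg
    nlinarith
  have hw₀ : 0 < w₀.ord (Fermat.Agent.RED.BASE.Interface12.tF n h₀ - algebraMap Kbar (FF n) c) := by
    have := hres (Fermat.Agent.RED.BASE.Interface12.tF n h₀ - algebraMap Kbar (FF n) c)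
    rw [ht] at this
    by_contra hneg
    rw [not_lt] at hneg
    nlinarith
  exact ord_sub_eq_zero D C hC hm (realizeData n) (cuspData n)
    (nuTwo_eq_zero hn) (nuThree_eq_zero hn)
    (tauFun_mem_HolH n e) ⟨a, b, hb, hab, hΘ⟩ ⟨a₀, b₀, hb₀, hab₀, hΘ₀⟩ hgen hdeg c w₀ hw₀j hw₀ v hv

/-- **Places over a finite cusp value are cusp places** (`ord_v j < 0`). -/
theorem ord_jF_neg_of_cusp_value (n e : ℕ) [NeZero n] (D : RealizeDataK L) (C : CuspDataK L D)
    (hC : C.Distinct) (hn : 4 ∣ n ∨ 9 ∣ n) (hle : modularFunctionFieldFull n ≤ L.F₀)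
    (hR₀ : Fermat.Agent.RED.BASE.Interface12.TRealize n e n) (hR : TRealize n e L D)
    (hG : Fermat.Agent.RED.BASE.Interface12.TGenBase n e)
    (cv : SL(2, ℤ) → Option Kbar) (hcv : CuspExp n e L C cv) :
    ∃ h : TMem n e L, ∀ v : Place Kbar (FFL L), ∀ (γ : SL(2, ℤ)) (c : Kbar), cv γ = some c →
      0 < v.ord (tF L h - algebraMap Kbar (FFL L) c) → v.ord (jFL L) < 0 := by
  obtain ⟨h, H⟩ := finiteAvoidsCusps n e D C hC hn hle hR₀ hR hG cv hcv
  refine ⟨h, fun v γ c hγ hpos => ?_⟩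
  by_contra hneg
  rw [not_lt] at hneg
  have := H v hneg γ c hγ
  omega

end Fermat.Agent.DS.G.RED.BASE.FiniteAvoids14
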