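/-
DS programme, chapter G-RED / BASE (helper89): generic twin of `RED/BASE/TGen19` (B2'), (B3'):
consequences of `TMem n e L` (`t ∈ ℚbar·L.F₀`) at an abstract level `L : LevelData`.

* `exists_fraction_of_mem`, `T_eq_of_mem`, `invariant_of_mem` : the analytic dictionary (fraction
  `w b = a` with `Θ a = Θ b · g`; identification of the cusp expansions; `L.Gam`-invariance) for ANY
  `f ∈ ℚbar·L.F₀` which is the convergent `q`-expansion of a function `g`;
* `tRealize_of_tMem`   : `TMem n e L → TRealize n e L D`;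
* `transcendental_tF`, `isGen_tF`, `tIsGen_of_tMem` : `TMem n e L → TIsGen n e L`.
The level-free lemmas of the original (`order_tK`, `tK_ne_zero`, …) are imported.
-/
import Mathlib
import Fermat.Agent.DS.G.RED.BASE.Interface12
import Fermat.Agent.DS.G.X0.FracR
import Fermat.Agent.DS.G.X0.Degree
import Fermat.Agent.DS.G.S20.CuspZero
import Fermat.Agent.RED.BASE.TGen19

set_option autoImplicit false
set_option linter.unusedSectionVars false

open ModularCurve UpperHalfPlane Polynomial IntermediateField AlgebraicCurve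
open scoped MatrixGroups

noncomputable section

namespace Fermat.Agent.DS.G.RED.BASE.TGen19

open Fermat.Agent.X0 Fermat.Agent.X0.Analytic Fermat.Agent.DS.G.Level
open Fermat.Agent.DS.G.RED.BASE.Interface12 Fermat.Agent.RED.BASE.EtaQuot12
open Fermat.Agent.RED.BASE.Interface12 (tK)
open Fermat.Agent.RED.BASE.TGen19 (tK_ne_zero order_tK)

/-! ### the analytic dictionary from membership alone -/

section Dictionary

variable {L : LevelData}

/-- `Θ u` has `u` as convergent `q`-expansion. -/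
theorem hasQExp_Θ (D : RealizeDataK L) (u : RsubL L) :
    HasQExp (toC ((u : FFL L) : LaurentSeries Kbar)) (D.Θ u) :=
  Fermat.Agent.DS.G.S20.CuspZero.hasQExp_Θ L D u

/-- **(ii)** An element `w = ⟨f, _⟩` of `FFL L` whose series is the convergent `q`-expansion of `g`
is a fraction `a / b` of elements of `R` with `Θ a = Θ b * g` pointwise. -/
theorem exists_fraction_of_mem (D : RealizeDataK L) {f : LaurentSeries Kbar} {g : ℍ → ℂ}
    (hf : f ∈ laurentBaseChange Kbar L.F₀) (hq : HasQExp (toC f) g) :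
    ∃ a b : RsubL L, b ≠ 0 ∧ (⟨f, hf⟩ : FFL L) * (b : FFL L) = (a : FFL L) ∧
      ∀ z, D.Θ a z = D.Θ b z * g z := by
  obtain ⟨a, b, hb, hw⟩ := Fermat.Agent.DS.G.X0.FracR.exists_div_ne_zero L Kbar (⟨f, hf⟩ : FFL L)
  have hb' : (b : FFL L) ≠ 0 := fun h0 => hb (Subtype.ext h0)
  have hwb : (⟨f, hf⟩ : FFL L) * (b : FFL L) = (a : FFL L) := by
    rw [hw, div_mul_cancel₀ _ hb']
  refine ⟨a, b, hb, hwb, fun z => ?_⟩
  have hser : ((a : FFL L) : LaurentSeries Kbar) = f * ((b : FFL L) : LaurentSeries Kbar) := by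
    rw [← hwb]
    rfl
  have h1 : HasQExp (toC ((a : FFL L) : LaurentSeries Kbar)) (g * D.Θ b) := by
    rw [hser, map_mul]
    exact hq.mul (hasQExp_Θ D b)
  have h2 := HasQExp.unique_right (hasQExp_Θ D a) h1
  rw [h2]
  show g z * D.Θ b z = D.Θ b z * g z
  ring

/-- **(i)** The cusp expansion `C.T γ w` is the `q_w`-expansion of `g ∘ γ`. -/
theorem T_eq_of_mem (D : RealizeDataK L) (C : CuspDataK L D) {f : LaurentSeries Kbar} {g : ℍ → ℂ}
    (hf : f ∈ laurentBaseChange Kbar L.F₀) (hq : HasQExp (toC f) g) (γ : SL(2, ℤ))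
    (T : LaurentSeries Kbar) (hT : IntgQN L.w (compSL g γ) (toC T)) :
    C.T γ (⟨f, hf⟩ : FFL L) = T := by
  obtain ⟨a, b, hb, hwb, hfun⟩ := exists_fraction_of_mem D hf hq
  have hb' : (b : FFL L) ≠ 0 := fun h0 => hb (Subtype.ext h0)
  have hTb : C.T γ (b : FFL L) ≠ 0 := by
    rw [Ne, map_eq_zero_iff _ (C.T γ).injective]
    exact hb'
  have ha : IntgQN L.w (compSL (D.Θ a) γ) (toC (C.T γ (a : FFL L))) :=
    Fermat.Agent.DS.G.S20.CuspZero.intg_T_spec L D C γ a
  have hbs : IntgQN L.w (compSL (D.Θ b) γ) (toC (C.T γ (b : FFL L))) :=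
    Fermat.Agent.DS.G.S20.CuspZero.intg_T_spec L D C γ b
  have hfun' : compSL (D.Θ a) γ = compSL (D.Θ b) γ * compSL g γ := by
    funext z
    exact hfun (γ • z)
  rw [hfun'] at ha
  have hprod := intg_qn_mul L.w hbs hT
  have h3 := toC_injective (by
    rw [map_mul]
    exact intg_qn_unique L.w ha hprod :
      toC (C.T γ (a : FFL L)) = toC (C.T γ (b : FFL L) * T))
  rw [← hwb, map_mul, mul_comm] at h3
  exact mul_left_cancel₀ hTb h3

/-- The function `g` attached to an element of `FFL L` is `L.Gam`-invariant. -/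
theorem invariant_of_mem (D : RealizeDataK L) {f : LaurentSeries Kbar} {g : ℍ → ℂ}
    (hf : f ∈ laurentBaseChange Kbar L.F₀) (hq : HasQExp (toC f) g) (γ : SL(2, ℤ))
    (hγ : γ ∈ L.Gam) : compSL g γ = g := by
  obtain ⟨a, b, hb, hwb, hfun⟩ := exists_fraction_of_mem D hf hq
  have ha := D.invariant a γ hγ
  have hbi := D.invariant b γ hγ
  have hmul : ∀ z, D.Θ b z * (g (γ • z) - g z) = 0 := by
    intro z
    have h1 : D.Θ a (γ • z) = D.Θ b (γ • z) * g (γ • z) := hfun (γ • z)
    have h2 : D.Θ a z = D.Θ b z * g z := hfun z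
    have h3 : D.Θ a (γ • z) = D.Θ a z := congrFun ha z
    have h4 : D.Θ b (γ • z) = D.Θ b z := congrFun hbi z
    rw [h3, h4, h2] at h1
    rw [mul_sub, ← h1, sub_self]
  have hg : g ∈ HolH := hq.mdifferentiable
  have hd : compSL g γ - g ∈ HolH := HolH.sub_mem (compSL_mem_HolH hg γ) hg
  have hprod : D.Θ b * (compSL g γ - g) = 0 := by
    funext z
    exact hmul z
  rcases mul_eq_zero_HolH (D.mem_HolH b) hd hprod with h0 | h0
  · exfalso
    apply hb
    apply D.injective
    rw [h0, map_zero]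
  · exact sub_eq_zero.mp h0

end Dictionary

/-! ### `TRealize` and `TIsGen` from `TMem` -/

section TFacts

variable (n e : ℕ) [NeZero n] (L : LevelData)

/-- **(B2')** `TMem n e L → TRealize n e L D`. -/
theorem tRealize_of_tMem (D : RealizeDataK L) (h : TMem n e L) : TRealize n e L D :=
  ⟨h, exists_fraction_of_mem D h (hasQExp_tauFun_K n e)⟩

/-- The cusp expansions of `t` at the level `L` are the `q_w`-expansions of `tauFun ∘ γ`. -/
theorem T_tF_eq (D : RealizeDataK L) (C : CuspDataK L D) (h : TMem n e L) (γ : SL(2, ℤ)) (T : LaurentSeries Kbar)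
    (hT : IntgQN L.w (compSL (tauFun n e) γ) (toC T)) : C.T γ (tF L h) = T :=
  T_eq_of_mem D C h (hasQExp_tauFun_K n e) γ T hT

/-- `tauFun` is `L.Gam`-invariant as soon as `t ∈ ℚbar·L.F₀`. -/
theorem tauFun_invariant (D : RealizeDataK L) (h : TMem n e L) (γ : SL(2, ℤ))
    (hγ : γ ∈ L.Gam) : compSL (tauFun n e) γ = tauFun n e :=
  invariant_of_mem D h (hasQExp_tauFun_K n e) γ hγ

/-- `t` is transcendental over `ℚbar` (it has a pole at the `q`-adic place). -/
theorem transcendental_tF (h : TMem n e L) : Transcendental Kbar (tF L h) := by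
  let τ : FFL L →+* LaurentSeries Kbar := (laurentBaseChange Kbar L.F₀).val.toRingHom
  have hτ : ∀ c : Kbar, τ (algebraMap Kbar (FFL L) c) = HahnSeries.C c := by
    intro c
    show algebraMap Kbar (LaurentSeries Kbar) c = HahnSeries.C c
    rw [algebraMap_laurentSeries_eq_single]
    rfl
  have ht0 : tF L h ≠ 0 := by
    intro h0
    apply tK_ne_zero n e
    exact congrArg Subtype.val h0
  have hord : (τ (tF L h)).order = -1 := order_tK n e
  have hnt : ∃ f, f ≠ 0 ∧ (τ f).order ≠ 0 := ⟨tF L h, ht0, by rw [hord]; decide⟩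
  obtain ⟨m, hm, hspec⟩ := LaurentPlace.embPlace_spec τ hτ hnt
  apply FF.ffp_transcendental_of_ord_ne_zero (LaurentPlace.embPlace τ hτ hnt)
  intro h0
  have := hspec (tF L h) ht0
  rw [hord, h0, mul_zero] at this
  exact absurd this (by decide)

/-- `t` is a transcendental generator of `FFL L`. -/
theorem isGen_tF (D : RealizeDataK L) (C : CuspDataK L D) (hC : C.Distinct) (h : TMem n e L) :
    FF.IsGen Kbar (tF L h) := by
  refine ⟨transcendental_tF n e L h, ?_⟩
  have := Fermat.Agent.DS.G.X0.Degree.finiteDimensional_adjoin L D C hC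
  exact FF.ffx_finiteDimensional_of_transcendental (jFL L) (tF L h) (transcendental_tF n e L h)

/-- **(B3')** `TMem n e L → TIsGen n e L`. -/
theorem tIsGen_of_tMem (D : RealizeDataK L) (C : CuspDataK L D) (hC : C.Distinct) (h : TMem n e L) : TIsGen n e L :=
  ⟨h, isGen_tF n e L D C hC h⟩

end TFacts

end Fermat.Agent.DS.G.RED.BASE.TGen19
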