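/-
DS programme, chapter G-RED / BASE (helper89): generic twin of `RED/BASE/Main12`: the exports of
the BASE chapter at an abstract level `L : LevelData` (all but the cusp expansions, which are in
`MainCusp12`).

For `(n, e) = (4, 8)` or `(9, 3)` (`hb : BaseHyp n e`) and every level `L` whose rational field
contains `F_n` (`hle : modularFunctionFieldFull n ≤ L.F₀`), the formal Hauptmodul
`t = tq Kbar n e = q⁻¹ (η(q)/η(q^n))^e` satisfies:

* `TMem n e L`         : `t ∈ ℚbar·L.F₀`;
* `TRealize n e L D`   : `t = a/b` with `Θ a = Θ b · tauFun n e`;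
* `TRealize n e n`, `TGenBase n e` : the base-level facts (ORIGINAL predicates, level `n`);
* `TIsGen n e L`       : `t` is a transcendental generator of `FFL L`;
* `Unbranched n e L`   : at every place not over `j = ∞`, `t - t(v)` is a uniformiser.
-/
import Fermat.Agent.RED.BASE.Hauptmodul12
import Fermat.Agent.DS.G.RED.BASE.TGen19
import Fermat.Agent.DS.G.RED.BASE.UnbranchedMain14

set_option autoImplicit false
set_option linter.unusedSectionVars false

open ModularCurve AlgebraicCurve
open scoped IntermediateField

namespace Fermat.Agent.DS.G.RED.BASE.Main12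

open Fermat.Agent.X0 Fermat.Agent.DS.G.Level
open Fermat.Agent.DS.G.RED.BASE.Interface12 Fermat.Agent.RED.BASE.Hauptmodul12

/-- the exports of the chapter at the level `L` (all but the cusp expansions). -/
structure BaseExports (n e : ℕ) [NeZero n] (L : LevelData) (D : RealizeDataK L) : Prop where
  mem : TMem n e L
  realize : TRealize n e L D
  realizeBase : Fermat.Agent.RED.BASE.Interface12.TRealize n e n
  genBase : Fermat.Agent.RED.BASE.Interface12.TGenBase n e
  isGen : TIsGen n e L
  unbranched : Unbranched n e L

variable {n e : ℕ} [NeZero n]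

theorem baseExports (hb : BaseHyp n e) (L : LevelData) (D : RealizeDataK L) (C : CuspDataK L D)
    (hC : C.Distinct) (hle : modularFunctionFieldFull n ≤ L.F₀) : BaseExports n e L D where
  mem := TMem.of_le hle (tMem hb)
  realize := TGen19.tRealize_of_tMem n e L D (TMem.of_le hle (tMem hb))
  realizeBase := Fermat.Agent.RED.BASE.TGen19.tRealize_of_tMem n e n (tMem hb)
  genBase := tGenBase' hb
  isGen := TGen19.tIsGen_of_tMem n e L D C hC (TMem.of_le hle (tMem hb))
  unbranched := UnbranchedMain14.unbranched n e L D C hC hb.four_or_nine hle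
    (Fermat.Agent.RED.BASE.TGen19.tRealize_of_tMem n e n (tMem hb))
    (TGen19.tRealize_of_tMem n e L D (TMem.of_le hle (tMem hb))) (tGenBase' hb)

/-- level `4`, exponent `8` (used for odd `ℓ`). -/
theorem baseExports_four (L : LevelData) (D : RealizeDataK L) (C : CuspDataK L D)
    (hC : C.Distinct) (hle : modularFunctionFieldFull 4 ≤ L.F₀) : BaseExports 4 8 L D :=
  baseExports baseHyp_four L D C hC hle

/-- level `9`, exponent `3` (used for `ℓ = 2`). -/
theorem baseExports_nine (L : LevelData) (D : RealizeDataK L) (C : CuspDataK L D)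
    (hC : C.Distinct) (hle : modularFunctionFieldFull 9 ≤ L.F₀) : BaseExports 9 3 L D :=
  baseExports baseHyp_nine L D C hC hle

end Fermat.Agent.DS.G.RED.BASE.Main12
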