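/-
DS programme, chapter G-RED / BASE (helper89): generic twin of `RED/BASE/MainCusp12` +
`RED/BASE/CuspFinite12`: the cusp exports (B4)/(B5) of the BASE chapter at an abstract level
`L : LevelData`, assembled from the cusp expansions `CuspExp n e L C cv ∧ CuspSeparated n cv`
(brick G-RED-BC) and the two corollaries on finite places.

* `CuspExp n e L C cv`    : every cusp expansion of `t` has the shape `CuspShape n _ (cv γ)`;
* `CuspSeparated n cv`    : two finite cusp values are equal or differ by a unit away from `n`;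
* `avoids`                : at the places `v` of `FFL L` not over `j = ∞`, `t(v)` is not a cusp value;
* `cuspPlaces`            : the places over a finite cusp value are places over `j = ∞`;
* `exists_finset_cuspValues` : (FIN) the finite cusp values form a finite set.
-/
import Fermat.Agent.DS.G.RED.BASE.Main12
import Fermat.Agent.DS.G.RED.BASE.FiniteAvoids14

set_option autoImplicit false
set_option linter.unusedSectionVars false

open ModularCurve AlgebraicCurve
open scoped MatrixGroups

namespace Fermat.Agent.DS.G.RED.BASE.MainCusp12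

open Fermat.Agent.X0 Fermat.Agent.X0.FF Fermat.Agent.DS.G.Level
open Fermat.Agent.DS.G.RED.BASE.Interface12
open Fermat.Agent.RED.BASE.Interface12 (CuspSeparated)
open Fermat.Agent.RED.BASE.Hauptmodul12 Fermat.Agent.DS.G.RED.BASE.Main12

/-- the cusp exports of the chapter at the level `L`, for the value function `cv`. -/
structure CuspExports (n e : ℕ) [NeZero n] (L : LevelData) (D : RealizeDataK L)
    (C : CuspDataK L D) (cv : SL(2, ℤ) → Option Kbar) : Prop where
  cuspExp : CuspExp n e L C cv
  separated : CuspSeparated n cv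
  avoids : ∃ h : TMem n e L, ∀ v : Place Kbar (FFL L), 0 ≤ v.ord (jFL L) →
    ∀ (γ : SL(2, ℤ)) (c : Kbar), cv γ = some c →
      v.ord (tF L h - algebraMap Kbar (FFL L) c) = 0
  cuspPlaces : ∃ h : TMem n e L, ∀ v : Place Kbar (FFL L), ∀ (γ : SL(2, ℤ)) (c : Kbar),
    cv γ = some c → 0 < v.ord (tF L h - algebraMap Kbar (FFL L) c) → v.ord (jFL L) < 0

theorem cuspExports_of {n e : ℕ} [NeZero n] (hb : BaseHyp n e) {L : LevelData}
    (D : RealizeDataK L) (C : CuspDataK L D) (hC : C.Distinct)
    (hle : modularFunctionFieldFull n ≤ L.F₀)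
    {cv : SL(2, ℤ) → Option Kbar} (h : CuspExp n e L C cv ∧ CuspSeparated n cv) :
    CuspExports n e L D C cv := by
  have hB := baseExports hb L D C hC hle
  exact
    { cuspExp := h.1
      separated := h.2
      avoids := FiniteAvoids14.finiteAvoidsCusps n e D C hC hb.four_or_nine hle hB.realizeBase
        hB.realize hB.genBase cv h.1
      cuspPlaces := FiniteAvoids14.ord_jF_neg_of_cusp_value n e D C hC hb.four_or_nine hle
        hB.realizeBase hB.realize hB.genBase cv h.1 }

/-- **BASE chapter at the level `L`, closed** (given the cusp expansions). -/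
theorem base_of {n e : ℕ} [NeZero n] (hb : BaseHyp n e) {L : LevelData}
    (D : RealizeDataK L) (C : CuspDataK L D) (hC : C.Distinct)
    (hle : modularFunctionFieldFull n ≤ L.F₀)
    {cv : SL(2, ℤ) → Option Kbar} (h : CuspExp n e L C cv ∧ CuspSeparated n cv) :
    BaseExports n e L D ∧ CuspExports n e L D C cv :=
  ⟨baseExports hb L D C hC hle, cuspExports_of hb D C hC hle h⟩

/-! ### (FIN) finiteness of the set of cusp values -/

/-- Two distinct constants cannot both be the value of `t` at a place. -/
theorem value_unique {K F : Type*} [Field K] [Field F] [Algebra K F] (v : Place K F)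
    (t : F) (c c' : K) (h : 0 < v.ord (t - algebraMap K F c))
    (h' : 0 < v.ord (t - algebraMap K F c')) : c = c' := by
  by_contra hne
  have h1 : t - algebraMap K F c ∈ v.toValuationSubring :=
    (ffp_mem_iff_ord_nonneg v).mpr (le_of_lt h)
  have h2 : t - algebraMap K F c' ∈ v.toValuationSubring :=
    (ffp_mem_iff_ord_nonneg v).mpr (le_of_lt h')
  have hd : algebraMap K F (c - c') = (t - algebraMap K F c') - (t - algebraMap K F c) := by
    rw [map_sub]
    ring
  have hcc : c - c' ≠ 0 := sub_ne_zero.mpr hne
  have h0 : v.ord (algebraMap K F (c - c')) = 0 := ffp_ord_algebraMap v _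
  have hne1 : t - algebraMap K F c ≠ 0 := by
    intro h0'
    rw [h0', Place.ord_zero] at h
    exact lt_irrefl _ h
  have hne2 : t - algebraMap K F c' ≠ 0 := by
    intro h0'
    rw [h0', Place.ord_zero] at h'
    exact lt_irrefl _ h'
  have hm1 : (⟨_, h1⟩ : v.toValuationSubring) ∈
      IsLocalRing.maximalIdeal v.toValuationSubring := by
    rw [ffp_mem_maximalIdeal_iff v _ (fun h0' => hne1 (congrArg Subtype.val h0'))]
    exact h
  have hm2 : (⟨_, h2⟩ : v.toValuationSubring) ∈
      IsLocalRing.maximalIdeal v.toValuationSubring := by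
    rw [ffp_mem_maximalIdeal_iff v _ (fun h0' => hne2 (congrArg Subtype.val h0'))]
    exact h'
  have hm3 := (IsLocalRing.maximalIdeal v.toValuationSubring).sub_mem hm2 hm1
  have hcmem : algebraMap K F (c - c') ∈ v.toValuationSubring :=
    (ffp_mem_iff_ord_nonneg v).mpr (le_of_eq h0.symm)
  have hcne : (⟨_, hcmem⟩ : v.toValuationSubring) ≠ 0 := by
    intro h0'
    have := congrArg Subtype.val h0'
    simp only [ZeroMemClass.coe_zero] at this
    exact hcc ((map_eq_zero (algebraMap K F)).mp this)
  have hm3' : (⟨_, hcmem⟩ : v.toValuationSubring) ∈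
      IsLocalRing.maximalIdeal v.toValuationSubring := by
    convert hm3 using 1
    exact Subtype.ext hd
  rw [ffp_mem_maximalIdeal_iff v _ hcne] at hm3'
  have hm4 : 0 < v.ord (algebraMap K F (c - c')) := hm3'
  omega

/-- a finite cusp value `c = cv γ` is the value of `t` at a place over `j = ∞`. -/
theorem exists_cuspPlace_of_value {n e : ℕ} [NeZero n] {L : LevelData} {D : RealizeDataK L}
    (C : CuspDataK L D) (cv : SL(2, ℤ) → Option Kbar) (hcv : CuspExp n e L C cv)
    (h : TMem n e L) (γ : SL(2, ℤ)) (c : Kbar) (hγ : cv γ = some c) :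
    ∃ w : Place Kbar (FFL L), w.ord (jFL L) < 0 ∧
      0 < w.ord (tF L h - algebraMap Kbar (FFL L) c) := by
  obtain ⟨h', hshape⟩ := hcv
  have hs := hshape γ
  rw [hγ] at hs
  obtain ⟨k, lam, V, hk, hlam, hV, -, -, hE⟩ := hs
  have hgood := Fermat.Agent.DS.G.X0.CuspGood.good C
  have hord : 0 < (C.T γ (tF L h - algebraMap Kbar (FFL L) c)).order := by
    have : C.T γ (tF L h - algebraMap Kbar (FFL L) c) =
        HahnSeries.C lam * HahnSeries.single (k : ℤ) 1 * HahnSeries.ofPowerSeries ℤ Kbar V := by
      have hE' : C.T γ (tF L h) = HahnSeries.C c + HahnSeries.C lam *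
          HahnSeries.single (k : ℤ) 1 * HahnSeries.ofPowerSeries ℤ Kbar V := hE
      rw [map_sub, hgood.map_const, hE']
      ring
    rw [this, Fermat.Agent.RED.BASE.FiniteAvoids14.order_cuspTail k lam hlam.1 V hV]
    exact_mod_cast hk
  exact FiniteAvoids14.exists_place_of_order_pos D C γ _ hord

/-- **(FIN)** the finite cusp values form a finite set. -/
theorem exists_finset_cuspValues {n e : ℕ} [NeZero n] {L : LevelData} {D : RealizeDataK L}
    (C : CuspDataK L D) (hC : C.Distinct)
    (cv : SL(2, ℤ) → Option Kbar) (hcv : CuspExp n e L C cv) :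
    ∃ S : Finset Kbar, ∀ (γ : SL(2, ℤ)) (c : Kbar), cv γ = some c → c ∈ S := by
  classical
  obtain ⟨h, -⟩ := id hcv
  have hj := Fermat.Agent.DS.G.X0.Degree.isGen_jF L D C hC
  have hfin := FF.finite_poles hj
  let val : Place Kbar (FFL L) → Kbar := fun v =>
    if hv : ∃ c : Kbar, 0 < v.ord (tF L h - algebraMap Kbar (FFL L) c) then hv.choose else 0
  refine ⟨hfin.toFinset.image val, fun γ c hγ => ?_⟩
  obtain ⟨w, hwj, hpos⟩ := exists_cuspPlace_of_value C cv hcv h γ c hγ
  rw [Finset.mem_image]
  refine ⟨w, ?_, ?_⟩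
  · rw [Set.Finite.mem_toFinset]
    exact hwj
  · have hex : ∃ c : Kbar, 0 < w.ord (tF L h - algebraMap Kbar (FFL L) c) := ⟨c, hpos⟩
    show (if hv : ∃ c : Kbar, 0 < w.ord (tF L h - algebraMap Kbar (FFL L) c)
      then hv.choose else 0) = c
    rw [dif_pos hex]
    exact value_unique _ _ _ _ hex.choose_spec hpos

end Fermat.Agent.DS.G.RED.BASE.MainCusp12
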