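/-
Programme DS (S48), chapter G-RED/BASE (helper16): COMPARISON of the cusp expansions of an abstract
level `L : LevelData` with those of the level `Γ₀(M)`.

Let `(D : RealizeDataK L) (C : CuspDataK L D)` be an interface pair at the level `L`, and let `M` be
such that `F_M := modularFunctionFieldFull M ≤ L.F₀` (so `FF M ⊆ FFL L`, `inclL`) and
`L.w = M * c`.  Then for every `x ∈ FF M` and every `γ ∈ SL(2, ℤ)`

  `C.T γ (inclL x) = qExpand c ((cuspData M).T γ x)`                      (`T_inclL`)

(both sides are the `q_w`-expansion of the same meromorphic function: write `inclL x = a / b` with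
`a b ∈ RsubL L`; then `Θ a = Θ b · Θ_M x` on `ℍ` because both sides have the same `q`-expansion at
`∞`).  Consequently every statement about the cusp expansions of elements of `FF M` proved at the
level `Γ₀(M)` (chapter `RED/BASE`) is inherited by `L`; `CuspExpMain11.lean` does this for the
Hauptmodul `t`.
-/
import Mathlib
import Fermat.Agent.DS.G.Level
import Fermat.Agent.DS.G.X0.FracR
import Fermat.Agent.DS.G.X0.Integrality
import Fermat.Agent.X0.CuspEquiv
import Fermat.Agent.X0.CuspGood
import Fermat.Agent.RED.BASE.CuspExpT11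

set_option autoImplicit false
set_option linter.unusedSectionVars false

open UpperHalfPlane ModularCurve
open scoped MatrixGroups

noncomputable section

namespace Fermat.Agent.DS.G.RED.BASE.Compare

open Fermat.Agent.X0 Fermat.Agent.X0.Analytic Fermat.Agent.DS.G.Level
open Fermat.Agent.DS.G.X0

/-! ### `IntgQN` and the level -/

/-- `IntgQN` only depends on the value of the level. -/
theorem intgQN_congr {N N' : ℕ} [NeZero N] [NeZero N'] (h : N = N') {g : ℍ → ℂ}
    {T : LaurentSeries ℂ} (hq : IntgQN N g T) : IntgQN N' g T := by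
  subst h
  exact hq

/-! ### The inclusion `FF M → FFL L` -/

section Incl

variable (L : LevelData) (M : ℕ) [NeZero M]
  (hle : ModularCurve.modularFunctionFieldFull M ≤ L.F₀)

include hle in
theorem fbar_le : ModularCurve.modularFunctionFieldBar M ≤
    ModularCurve.laurentBaseChange Kbar L.F₀ := by
  unfold ModularCurve.modularFunctionFieldBar ModularCurve.laurentBaseChange
  apply IntermediateField.adjoin.mono
  exact Set.image_mono hle

/-- The inclusion `FF M → FFL L` when `F_M ≤ L.F₀`. -/
def inclL : FF M →+* FFL L := (IntermediateField.inclusion (fbar_le L M hle)).toRingHom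

@[simp] theorem coe_inclL (x : FF M) :
    ((inclL L M hle x : FFL L) : LaurentSeries Kbar) = (x : LaurentSeries Kbar) :=
  IntermediateField.coe_inclusion (fbar_le L M hle) x

/-- an element of `FFL L` whose underlying series is that of `x ∈ FF M` is `inclL x`. -/
theorem eq_inclL {y : FFL L} {x : FF M}
    (h : (y : LaurentSeries Kbar) = (x : LaurentSeries Kbar)) : y = inclL L M hle x := by
  apply Subtype.ext
  rw [coe_inclL]
  exact h

theorem inclL_algebraMap (c : Kbar) :
    inclL L M hle (algebraMap Kbar (FF M) c) = algebraMap Kbar (FFL L) c :=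
  (IntermediateField.inclusion (fbar_le L M hle)).commutes c

theorem inclL_jF : inclL L M hle (jF M) = jFL L := by
  symm
  apply eq_inclL
  show coeffEmb Kbar jq = coeffEmb Kbar (qExpand ℚ 1 jq)
  rw [qExpand_one_apply]

end Incl

/-! ### `q`-expansions at `∞` -/

section AtInfinity

variable (L : LevelData) (D : RealizeDataK L)

/-- `Θ u` has the (complexified) formal element as `q`-expansion. -/
theorem hasQExp_Θ (u : RsubL L) :
    HasQExp (toC ((u : FFL L) : LaurentSeries Kbar)) (D.Θ u) := by
  obtain ⟨m, P, hP, hu⟩ := D.isQExp u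
  rw [hu, toC, lor_coeffMap_laurentOf]
  exact intg_hasQExp_of_isQExp hP

/-- the same at the level `Γ₀(M)`. -/
theorem hasQExp_Θ0 (M : ℕ) [NeZero M] (u : Rsub M) :
    HasQExp (toC ((u : FF M) : LaurentSeries Kbar)) ((realizeData M).Θ u) := by
  obtain ⟨m, P, hP, hu⟩ := (realizeData M).isQExp u
  rw [hu, toC, lor_coeffMap_laurentOf]
  exact intg_hasQExp_of_isQExp hP

variable (M : ℕ) [NeZero M] (hle : ModularCurve.modularFunctionFieldFull M ≤ L.F₀)

/-- If `u · b = a` in `FFL L` (`u ∈ R_M`, `a b ∈ R_L`) then `Θ a = Θ b · Θ_M u` on `ℍ`. -/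
theorem Θ_eq_of_mul_eq (u : Rsub M) (a b : RsubL L)
    (h : inclL L M hle (u : FF M) * (b : FFL L) = (a : FFL L)) :
    D.Θ a = D.Θ b * (realizeData M).Θ u := by
  have ha := hasQExp_Θ L D a
  have hb := hasQExp_Θ L D b
  have hu := hasQExp_Θ0 M u
  have hprod := HasQExp.mul hb hu
  have hser : toC ((b : FFL L) : LaurentSeries Kbar) * toC ((u : FF M) : LaurentSeries Kbar)
      = toC ((a : FFL L) : LaurentSeries Kbar) := by
    rw [← map_mul]
    congr 1
    have := congrArg (fun y : FFL L => (y : LaurentSeries Kbar)) h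
    simp only [MulMemClass.coe_mul, coe_inclL] at this
    rw [mul_comm]
    exact this
  rw [hser] at hprod
  exact HasQExp.unique_right ha hprod

end AtInfinity

/-! ### The comparison of the cusp expansions -/

section Cusp

variable (L : LevelData) (D : RealizeDataK L) (C : CuspDataK L D)
  (M : ℕ) [NeZero M] (hle : ModularCurve.modularFunctionFieldFull M ≤ L.F₀)
  (c : ℕ) [NeZero c] (hw : L.w = M * c)

include hw in
/-- the comparison on `R_M`. -/
theorem T_inclL_Rsub (γ : SL(2, ℤ)) (u : Rsub M) :
    C.T γ (inclL L M hle (u : FF M)) = qExpand Kbar c ((cuspData M).T γ (u : FF M)) := by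
  haveI : NeZero (M * c) := ⟨Nat.mul_ne_zero (NeZero.ne M) (NeZero.ne c)⟩
  obtain ⟨a, b, hb, hab⟩ := FracR.exists_div_ne_zero L Kbar (inclL L M hle (u : FF M))
  have hb' : (b : FFL L) ≠ 0 := fun h => hb (Subtype.ext h)
  have hmul : inclL L M hle (u : FF M) * (b : FFL L) = (a : FFL L) := by
    rw [hab, div_mul_cancel₀ _ hb']
  have hΘ := Θ_eq_of_mul_eq L D M hle u a b hmul
  have h1 : IntgQN L.w (compSL (D.Θ a) γ) (toC (C.T γ (a : FFL L))) :=
    Integrality.intg_T_spec L D C γ a
  have h2 : IntgQN L.w (compSL (D.Θ b) γ) (toC (C.T γ (b : FFL L))) :=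
    Integrality.intg_T_spec L D C γ b
  have h3 : IntgQN M (compSL ((realizeData M).Θ u) γ) (toC ((cuspData M).T γ (u : FF M))) :=
    Fermat.Agent.X0.intg_T_spec M (realizeData M) (cuspData M) γ u
  have h4 : IntgQN (M * c) (compSL ((realizeData M).Θ u) γ)
      (qExpand ℂ c (toC ((cuspData M).T γ (u : FF M)))) :=
    Fermat.Agent.RED.BASE.CuspExpT11.intgQN_mul_level M c h3
  have h5 : IntgQN L.w (compSL ((realizeData M).Θ u) γ)
      (toC (qExpand Kbar c ((cuspData M).T γ (u : FF M)))) := by
    rw [toC, CuspGood.coeffMap_qExpand]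
    exact intgQN_congr hw.symm h4
  have h6 : compSL (D.Θ a) γ = compSL (D.Θ b) γ * compSL ((realizeData M).Θ u) γ := by
    rw [hΘ]
    rfl
  have h7 := intg_qn_mul L.w h2 h5
  rw [← h6, ← map_mul] at h7
  have h9 : C.T γ (a : FFL L)
      = C.T γ (b : FFL L) * qExpand Kbar c ((cuspData M).T γ (u : FF M)) :=
    toC_injective (intg_qn_unique L.w h1 h7)
  have hTb : C.T γ (b : FFL L) ≠ 0 := by
    rw [Ne, map_eq_zero]
    exact hb'
  rw [hab, map_div₀, h9, mul_div_cancel_left₀ _ hTb]

include hw in
/-- **Comparison.** For `x ∈ FF M ⊆ FFL L`: the level `L` expansion at `γ` is `qExpand c` of the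
level `Γ₀(M)` expansion. -/
theorem T_inclL (γ : SL(2, ℤ)) (x : FF M) :
    C.T γ (inclL L M hle x) = qExpand Kbar c ((cuspData M).T γ x) := by
  have key : (C.T γ).comp (inclL L M hle) = (qExpand Kbar c).comp ((cuspData M).T γ) := by
    apply CuspEquiv.ringHom_ext_Rsub
    intro u
    exact T_inclL_Rsub L D C M hle c hw γ u
  exact congrFun (congrArg DFunLike.coe key) x

end Cusp

end Fermat.Agent.DS.G.RED.BASE.Compare
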