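/-
Programme DS (S48), chapter G-RED, brick 383 (G-RED-BC), helper13: the cusp exports (B5) + (B4) of
chapter BASE at an abstract level `L : LevelData` (`DS/G/Level.lean`), by COMPARISON with the level
`Γ₀(M)` (no re-proof of the classification of `RED/BASE/CuspExpMain11`).

Input (`Compare`, hypothesis `hT` below): for `x ∈ FF M ⊆ FFL L` (i.e. `F_M ≤ L.F₀`) and
`L.w = M c`, the expansion of `x` at the cusp `γ ∞` of level `L` is `q ↦ q^c` of the one of level
`Γ₀(M)`: `C.T γ x = qExpand c ((cuspData M).T γ x)`.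

* `cuspShape_qExpand` : `CuspShape m E cv → CuspShape m (qExpand c E) cv`;
* `cuspExp_of_compare` : `CuspExp n e M cv → CuspExp n e L C cv` (old to new);
* `cusp_four`, `cusp_nine` : `CuspExp n e L C (cvT n e M) ∧ CuspSeparated n (cvT n e M)` for
  `(n, e) = (4, 8)`, `(9, 3)`, with the value function `cvT n e M` of the ORIGINAL file.
-/
import Mathlib
import Fermat.Agent.DS.G.RED.BASE.Interface12
import Fermat.Agent.RED.BASE.CuspExpMain11
import Fermat.Agent.RED.BASE.Hauptmodul12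

set_option autoImplicit false

open UpperHalfPlane ModularCurve HahnSeries
open scoped MatrixGroups

noncomputable section

namespace Fermat.Agent.DS.G.RED.BASE.CuspExpMain11

open Fermat.Agent.X0 Fermat.Agent.DS.G.Level
open Fermat.Agent.RED.BASE.Interface12 (tK CuspShape CuspSeparated IsIntAway IsUnitAway)
open Fermat.Agent.RED.BASE.CuspExpMain11 (qExpand_ofPS isIntAway_coeff_expand cvT)
open Fermat.Agent.DS.G.RED.BASE.Interface12

/-! ### the cusp shape is stable under `q ↦ q^c` -/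

theorem qExpand_shape (c : ℕ) [hc : NeZero c] (lam : Kbar) (a : ℕ) (V : PowerSeries Kbar) :
    qExpand Kbar c (HahnSeries.C lam * HahnSeries.single (a : ℤ) 1 *
        HahnSeries.ofPowerSeries ℤ Kbar V) =
      HahnSeries.C lam * HahnSeries.single ((c * a : ℕ) : ℤ) 1 *
        HahnSeries.ofPowerSeries ℤ Kbar (V.expand c hc.ne) := by
  rw [map_mul, map_mul, qExpand_C, qExpand_single, qExpand_ofPS]
  push_cast
  rfl

/-- **The cusp shape is stable under `q ↦ q^c`** (same value). -/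
theorem cuspShape_qExpand {m : ℕ} (c : ℕ) [hc : NeZero c] {E : LaurentSeries Kbar}
    {cv : Option Kbar} (h : CuspShape m E cv) : CuspShape m (qExpand Kbar c E) cv := by
  obtain ⟨a, lam, V, ha, hlam, hV0, hV, hE⟩ := h
  refine ⟨c * a, lam, V.expand c hc.ne, Nat.mul_pos (Nat.pos_of_ne_zero hc.ne) ha, hlam, ?_,
    isIntAway_coeff_expand c hc.ne hV, ?_⟩
  · rw [PowerSeries.constantCoeff_expand, hV0]
  · cases cv with
    | none =>
      show (qExpand Kbar c E)⁻¹ = _
      have hE' : E⁻¹ = HahnSeries.C lam * HahnSeries.single (a : ℤ) 1 *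
          HahnSeries.ofPowerSeries ℤ Kbar V := hE
      rw [← map_inv₀, hE', qExpand_shape]
    | some c₀ =>
      have hE' : IsIntAway m c₀ ∧ E = HahnSeries.C c₀ + HahnSeries.C lam *
          HahnSeries.single (a : ℤ) 1 * HahnSeries.ofPowerSeries ℤ Kbar V := hE
      show IsIntAway m c₀ ∧ qExpand Kbar c E = _
      refine ⟨hE'.1, ?_⟩
      conv_lhs => rw [hE'.2]
      rw [map_add, qExpand_C, qExpand_shape]

/-! ### old to new -/

section Compare

variable {n e : ℕ} [NeZero n] (M c : ℕ) [NeZero M] [NeZero c]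
  (L : LevelData) (D : RealizeDataK L) (C : CuspDataK L D)

/-- **(B5) by comparison**: if the level `L` expansions of the elements of `FF M ⊆ FFL L` are
`q ↦ q^c` of the level `Γ₀(M)` ones, then the old `CuspExp n e M cv` gives the new
`CuspExp n e L C cv` (same value function). -/
theorem cuspExp_of_compare
    (hT : ∀ (γ : SL(2, ℤ)) (x : FF M)
      (hx : ((x : FF M) : LaurentSeries Kbar) ∈ ModularCurve.laurentBaseChange Kbar L.F₀),
      C.T γ ⟨(x : LaurentSeries Kbar), hx⟩ = qExpand Kbar c ((cuspData M).T γ x))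
    (hmem : TMem n e L) {cv : SL(2, ℤ) → Option Kbar}
    (h : Fermat.Agent.RED.BASE.Interface12.CuspExp n e M cv) : CuspExp n e L C cv := by
  obtain ⟨hM, hshape⟩ := h
  refine ⟨hmem, fun γ => ?_⟩
  have h1 : C.T γ (tF L hmem) =
      qExpand Kbar c ((cuspData M).T γ (Fermat.Agent.RED.BASE.Interface12.tF M hM)) :=
    hT γ (Fermat.Agent.RED.BASE.Interface12.tF M hM) hmem
  rw [h1]
  exact cuspShape_qExpand c (hshape γ)

/-- **(B5) + (B4)** for `t₄ = q⁻¹ (η(q)/η(q⁴))^8` at the level `L`, `4 ∣ M`, `F_M ≤ L.F₀`,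
`L.w = M c`. -/
theorem cusp_four (hM : 4 ∣ M)
    (hT : ∀ (γ : SL(2, ℤ)) (x : FF M)
      (hx : ((x : FF M) : LaurentSeries Kbar) ∈ ModularCurve.laurentBaseChange Kbar L.F₀),
      C.T γ ⟨(x : LaurentSeries Kbar), hx⟩ = qExpand Kbar c ((cuspData M).T γ x))
    (hmem : TMem 4 8 L) :
    CuspExp 4 8 L C (cvT 4 8 M) ∧ CuspSeparated 4 (cvT 4 8 M) := by
  have h := Fermat.Agent.RED.BASE.CuspExpMain11.cuspExp_four M hM
    (Fermat.Agent.RED.BASE.Hauptmodul12.tMem Fermat.Agent.RED.BASE.Hauptmodul12.baseHyp_four)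
  exact ⟨cuspExp_of_compare M c L D C hT hmem h.1, h.2⟩

/-- **(B5) + (B4)** for `t₉ = q⁻¹ (η(q)/η(q⁹))^3` at the level `L`, `9 ∣ M`, `F_M ≤ L.F₀`,
`L.w = M c`. -/
theorem cusp_nine (hM : 9 ∣ M)
    (hT : ∀ (γ : SL(2, ℤ)) (x : FF M)
      (hx : ((x : FF M) : LaurentSeries Kbar) ∈ ModularCurve.laurentBaseChange Kbar L.F₀),
      C.T γ ⟨(x : LaurentSeries Kbar), hx⟩ = qExpand Kbar c ((cuspData M).T γ x))
    (hmem : TMem 9 3 L) :
    CuspExp 9 3 L C (cvT 9 3 M) ∧ CuspSeparated 9 (cvT 9 3 M) := by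
  have h := Fermat.Agent.RED.BASE.CuspExpMain11.cuspExp_nine M hM
    (Fermat.Agent.RED.BASE.Hauptmodul12.tMem Fermat.Agent.RED.BASE.Hauptmodul12.baseHyp_nine)
  exact ⟨cuspExp_of_compare M c L D C hT hmem h.1, h.2⟩

end Compare

end Fermat.Agent.DS.G.RED.BASE.CuspExpMain11
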