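/-
Programme DS (S48), chapter G-RED/BASE, brick 383 (helper16): the cusp exports (B5) + (B4) at an
abstract level, UNCONDITIONALLY: the comparison hypothesis `hT` of helper13's
`DS/G/RED/BASE/CuspExpMain11` is discharged by `Compare.T_inclL`.

For `L : LevelData` with an interface pair `(D, C)`, `M` with `modularFunctionFieldFull M ≤ L.F₀`
and `L.w = M * c`:
* `compare` : the hypothesis `hT` of `CuspExpMain11.cusp_four / cusp_nine / cuspExp_of_compare`;
* `cuspExp_of_level` : `CuspExp n e M cv → CuspExp n e L C cv`;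
* `cuspExp_four`, `cuspExp_nine` : `CuspExp n e L C (cvT n e M) ∧ CuspSeparated n (cvT n e M)`.
-/
import Mathlib
import Fermat.Agent.DS.G.RED.BASE.Compare
import Fermat.Agent.DS.G.RED.BASE.CuspExpMain11

set_option autoImplicit false
set_option linter.unusedSectionVars false

open UpperHalfPlane ModularCurve
open scoped MatrixGroups

noncomputable section

namespace Fermat.Agent.DS.G.RED.BASE.CuspExpLevel11

open Fermat.Agent.X0 Fermat.Agent.DS.G.Level
open Fermat.Agent.RED.BASE.Interface12 (CuspSeparated)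
open Fermat.Agent.RED.BASE.CuspExpMain11 (cvT)
open Fermat.Agent.DS.G.RED.BASE.Interface12 Fermat.Agent.DS.G.RED.BASE.Compare

variable (L : LevelData) (D : RealizeDataK L) (C : CuspDataK L D)
  (M : ℕ) [NeZero M] (hle : ModularCurve.modularFunctionFieldFull M ≤ L.F₀)
  (c : ℕ) [NeZero c] (hw : L.w = M * c)

include hle hw in
/-- the comparison, in the shape of the hypothesis `hT` of `CuspExpMain11`. -/
theorem compare (γ : SL(2, ℤ)) (x : FF M)
    (hx : ((x : FF M) : LaurentSeries Kbar) ∈ ModularCurve.laurentBaseChange Kbar L.F₀) :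
    C.T γ ⟨(x : LaurentSeries Kbar), hx⟩ = qExpand Kbar c ((cuspData M).T γ x) := by
  have h1 : (⟨(x : LaurentSeries Kbar), hx⟩ : FFL L) = inclL L M hle x := eq_inclL L M hle rfl
  rw [h1]
  exact T_inclL L D C M hle c hw γ x

include hle hw in
/-- **(B5) is inherited from the level `Γ₀(M)`.** -/
theorem cuspExp_of_level (n e : ℕ) [NeZero n] {cv : SL(2, ℤ) → Option Kbar}
    (h : Fermat.Agent.RED.BASE.Interface12.CuspExp n e M cv) : CuspExp n e L C cv :=
  CuspExpMain11.cuspExp_of_compare M c L D C (compare L D C M hle c hw)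
    (TMem.of_le hle h.choose) h

include hle hw in
/-- **(B5) + (B4)** for `t₄` at the level `L`, `4 ∣ M`. -/
theorem cuspExp_four (hM : 4 ∣ M) :
    CuspExp 4 8 L C (cvT 4 8 M) ∧ CuspSeparated 4 (cvT 4 8 M) :=
  CuspExpMain11.cusp_four M c L D C hM (compare L D C M hle c hw)
    (TMem.of_le hle (Fermat.Agent.RED.BASE.Interface12.TMem.mono hM
      (Fermat.Agent.RED.BASE.Hauptmodul12.tMem Fermat.Agent.RED.BASE.Hauptmodul12.baseHyp_four)))

include hle hw in
/-- **(B5) + (B4)** for `t₉` at the level `L`, `9 ∣ M`. -/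
theorem cuspExp_nine (hM : 9 ∣ M) :
    CuspExp 9 3 L C (cvT 9 3 M) ∧ CuspSeparated 9 (cvT 9 3 M) :=
  CuspExpMain11.cusp_nine M c L D C hM (compare L D C M hle c hw)
    (TMem.of_le hle (Fermat.Agent.RED.BASE.Interface12.TMem.mono hM
      (Fermat.Agent.RED.BASE.Hauptmodul12.tMem Fermat.Agent.RED.BASE.Hauptmodul12.baseHyp_nine)))

end Fermat.Agent.DS.G.RED.BASE.CuspExpLevel11
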