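/-
DS programme, chapter G-RED / BASE (helper89): the BASE chapter at an abstract level, CLOSED.

For `L : LevelData` with an interface pair `(D, C)`, `hC : C.Distinct`, a level `M` with
`modularFunctionFieldFull M ≤ L.F₀` and `L.w = M * c`, and `4 ∣ M` (resp. `9 ∣ M`):
all exports `BaseExports n e L D ∧ CuspExports n e L D C (cvT n e M)` of the chapter, for
`(n, e) = (4, 8)` (resp. `(9, 3)`), with the cusp expansions of helper13/helper16
(`CuspExpLevel11`) plugged into `MainCusp12.base_of`.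
-/
import Mathlib
import Fermat.Agent.DS.G.RED.BASE.MainCusp12
import Fermat.Agent.DS.G.RED.BASE.CuspExpLevel11

set_option autoImplicit false
set_option linter.unusedSectionVars false

open ModularCurve AlgebraicCurve
open scoped MatrixGroups

namespace Fermat.Agent.DS.G.RED.BASE.BaseLevel12

open Fermat.Agent.X0 Fermat.Agent.DS.G.Level
open Fermat.Agent.DS.G.RED.BASE.Interface12
open Fermat.Agent.RED.BASE.Interface12 (CuspSeparated)
open Fermat.Agent.RED.BASE.CuspExpMain11 (cvT)
open Fermat.Agent.RED.BASE.Hauptmodul12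
open Fermat.Agent.DS.G.RED.BASE.Main12 Fermat.Agent.DS.G.RED.BASE.MainCusp12

/-- `F_n ⊆ F_M` for `n ∣ M` (fields of `Γ₀`-levels over `ℚ`). -/
theorem full_le_full {n M : ℕ} (h : n ∣ M) :
    modularFunctionFieldFull n ≤ modularFunctionFieldFull M := by
  refine IntermediateField.adjoin.mono ℚ _ _ ?_
  rintro _ ⟨d, hne, hd, rfl⟩
  exact ⟨d, hne, hd.trans h, rfl⟩

theorem full_le_of_dvd {n M : ℕ} (h : n ∣ M) {L : LevelData}
    (hle : modularFunctionFieldFull M ≤ L.F₀) : modularFunctionFieldFull n ≤ L.F₀ :=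
  (full_le_full h).trans hle

variable (L : LevelData) (D : RealizeDataK L) (C : CuspDataK L D) (hC : C.Distinct)
  (M : ℕ) [NeZero M] (hle : modularFunctionFieldFull M ≤ L.F₀)
  (c : ℕ) [NeZero c] (hw : L.w = M * c)

include hC hle hw in
/-- **BASE chapter at the level `L`, `4 ∣ M`, closed.** -/
theorem base_four (hM : 4 ∣ M) :
    BaseExports 4 8 L D ∧ CuspExports 4 8 L D C (cvT 4 8 M) :=
  base_of baseHyp_four D C hC (full_le_of_dvd hM hle)
    (CuspExpLevel11.cuspExp_four L D C M hle c hw hM)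

include hC hle hw in
/-- **BASE chapter at the level `L`, `9 ∣ M`, closed.** -/
theorem base_nine (hM : 9 ∣ M) :
    BaseExports 9 3 L D ∧ CuspExports 9 3 L D C (cvT 9 3 M) :=
  base_of baseHyp_nine D C hC (full_le_of_dvd hM hle)
    (CuspExpLevel11.cuspExp_nine L D C M hle c hw hM)

include hC hle hw in
/-- (FIN) at `4 ∣ M`. -/
theorem exists_finset_cuspValues_four (hM : 4 ∣ M) :
    ∃ S : Finset Kbar, ∀ (γ : SL(2, ℤ)) (c' : Kbar), cvT 4 8 M γ = some c' → c' ∈ S :=
  exists_finset_cuspValues C hC _ (CuspExpLevel11.cuspExp_four L D C M hle c hw hM).1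

include hC hle hw in
/-- (FIN) at `9 ∣ M`. -/
theorem exists_finset_cuspValues_nine (hM : 9 ∣ M) :
    ∃ S : Finset Kbar, ∀ (γ : SL(2, ℤ)) (c' : Kbar), cvT 9 3 M γ = some c' → c' ∈ S :=
  exists_finset_cuspValues C hC _ (CuspExpLevel11.cuspExp_nine L D C M hle c hw hM).1

end Fermat.Agent.DS.G.RED.BASE.BaseLevel12
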